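import Fermat.Agent.S05.Inertia

/-!
# S05, part C: multiplicative reduction, component bookkeeping.
-/

set_option autoImplicit false

namespace Fermat.Agent.S05

open WeierstrassCurve WeierstrassCurve.Affine

variable {K : Type*} [Field K] [DecidableEq K]
variable {Γ₀ : Type*} [LinearOrderedCommGroupWithZero Γ₀] {v : Valuation K Γ₀}

/-- `P` lies on the "positive" component at depth `v t`. -/
def IsPos (v : Valuation K Γ₀) {E : WeierstrassCurve.Affine K} (γ : K) (P : E.Point) (t : K) :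
    Prop :=
  v E.a₄ < v t ∧ v t < 1 ∧
    ∃ (x s : K) (h : E.Nonsingular x (x * s)), P = Point.some _ _ h ∧ v x = v t ∧ v (s - γ) < 1

omit [DecidableEq K] in
theorem alg_s3a {W x₁ x₂ s₁ s₂ γ : K} (hM : x₁ * x₂ - W ≠ 0) :
    (-s₁ - (x₁ * x₂ - W) / (x₁ * (s₁ + s₂)) + x₁ * x₂ * (s₁ + s₂) / (x₁ * x₂ - W)) - γ
      = (s₂ - γ) + (s₁ + s₂) * W / (x₁ * x₂ - W) - (x₁ * x₂ - W) / (x₁ * (s₁ + s₂)) := by
  field_simp
  ring

theorem IsMC.pos_add_pos {E : WeierstrassCurve.Affine K} (hE : IsMC E)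
    (h2 : v (2 : K) = 1) (hT : E.Nonsingular 0 0) {γ : K} (hγ : v γ = 1)
    {Q P : E.Point} {t t' : K} (hQ : IsPos v γ Q t) (hP : IsPos v γ P t') :
    (v E.a₄ < v (t * t') → IsPos v γ (Q + P) (t * t')) ∧
    (v (t * t') = v E.a₄ → InE0 v (Q + P + Point.some 0 0 hT)) ∧
    (v (t * t') < v E.a₄ → IsPos v γ (Q + P + Point.some 0 0 hT) (t * t' / E.a₄)) := by
  obtain ⟨ht1, ht2, x₁, s₁, h₁, rfl, hx₁, hs₁⟩ := hQ
  obtain ⟨ht1', ht2', x₂, s₂, h₂, rfl, hx₂, hs₂⟩ := hP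
  have hx₁0 : x₁ ≠ 0 := by
    rintro rfl
    rw [map_zero] at hx₁; rw [← hx₁] at ht1; simp at ht1
  have hx₂0 : x₂ ≠ 0 := by
    rintro rfl
    rw [map_zero] at hx₂; rw [← hx₂] at ht1'; simp at ht1'
  have hx12 : v (x₁ * x₂) = v (t * t') := by rw [map_mul, map_mul, hx₁, hx₂]
  have hvx₁ : 0 < v x₁ := (Valuation.pos_iff v).mpr hx₁0
  have hvx₂ : 0 < v x₂ := (Valuation.pos_iff v).mpr hx₂0
  have hvx12 : 0 < v (x₁ * x₂) := (Valuation.pos_iff v).mpr (mul_ne_zero hx₁0 hx₂0)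
  have hDv : v (s₁ + s₂) = 1 := by
    have : s₁ + s₂ = 2 * γ + ((s₁ - γ) + (s₂ - γ)) := by ring
    rw [this]
    have h8 : v (2 * γ) = 1 := by rw [map_mul, h2, hγ, one_mul]
    rw [← h8]
    exact Valuation.map_add_eq_of_lt_left v (h8 ▸ Valuation.map_add_lt v hs₁ hs₂)
  have hD : s₁ + s₂ ≠ 0 := by
    intro h0; rw [h0] at hDv; simp at hDv
  refine ⟨fun hlt => ?_, fun heq => ?_, fun hlt => ?_⟩
  · -- case (a)
    have hvM : v (x₁ * x₂ - E.a₄) = v (x₁ * x₂) :=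
      Valuation.map_sub_eq_of_lt_left v (hx12 ▸ hlt)
    have hM : x₁ * x₂ - E.a₄ ≠ 0 := by
      intro h0; rw [h0, map_zero] at hvM; exact hvx12.ne hvM
    obtain ⟨x₃, s₃, h₃, hadd, hx₃, hs₃⟩ := hE.add_plus' hx₁0 hx₂0 hD hM h₁ h₂
    refine ⟨hlt, ?_, x₃, s₃, h₃, hadd, ?_, ?_⟩
    · rw [map_mul]; exact mul_lt_one_of_lt_of_le ht2 ht2'.le
    · rw [hx₃, map_div₀, map_pow, map_mul v (x₁ * x₂), map_pow, hvM, hDv, one_pow, mul_one, ← hx12, sq,
        mul_div_assoc, div_self hvx12.ne', mul_one]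
    · rw [hs₃, alg_s3a hM]
      refine Valuation.map_sub_lt v (Valuation.map_add_lt v hs₂ ?_) ?_
      · rw [map_div₀, map_mul, hDv, one_mul, hvM, hx12]
        exact (div_lt_one₀ (hx12 ▸ hvx12)).mpr hlt
      · rw [map_div₀, hvM, map_mul, map_mul, hDv, mul_one, mul_comm, mul_div_assoc,
          div_self hvx₁.ne', mul_one, hx₂]
        exact ht2'
  · -- case (b)
    obtain ⟨x₃, y₃, h₃, hadd, hx₃⟩ := hE.add_plus_x' hx₁0 hx₂0 hD h₁ h₂
    rw [hadd]
    apply hE.E0_add_T_of_le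
    have hvM : v (x₁ * x₂ - E.a₄) ≤ v E.a₄ :=
      Valuation.map_sub_le v (by rw [hx12, heq]) le_rfl
    have hW0 : 0 < v E.a₄ := by rw [← heq, ← hx12]; exact hvx12
    rw [hx₃, map_div₀, map_pow, map_mul v (x₁ * x₂), map_pow, hDv, one_pow, mul_one, hx12, heq,
      div_le_iff₀ hW0, sq]
    exact mul_le_mul' hvM hvM
  · -- case (c)
    have hvM : v (x₁ * x₂ - E.a₄) = v E.a₄ :=
      Valuation.map_sub_eq_of_lt_right v (hx12 ▸ hlt)
    have hW0 : 0 < v E.a₄ := lt_of_le_of_lt zero_le hlt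
    have hM : x₁ * x₂ - E.a₄ ≠ 0 := by
      intro h0; rw [h0, map_zero] at hvM; exact hW0.ne hvM
    obtain ⟨x₃, s₃, h₃, hadd, hx₃, hs₃⟩ := hE.add_plus' hx₁0 hx₂0 hD hM h₁ h₂
    have hvx₃ : v x₃ = v E.a₄ ^ 2 / v (x₁ * x₂) := by
      rw [hx₃, map_div₀, map_pow, map_mul v (x₁ * x₂), map_pow, hvM, hDv, one_pow, mul_one]
    have hx₃0 : x₃ ≠ 0 := by
      intro h0
      rw [h0, map_zero] at hvx₃
      exact (div_pos (pow_pos hW0 2) hvx12).ne hvx₃
    obtain ⟨x₄, s₄, h₄, hadd', hx₄, hs₄⟩ := hE.add_T' hx₃0 hT h₃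
    refine ⟨?_, ?_, x₄, s₄, h₄, by rw [hadd, hadd'], ?_, ?_⟩
    · rw [map_div₀, lt_div_iff₀ hW0, map_mul]
      exact mul_lt_mul'' ht1 ht1' zero_le zero_le
    · rw [map_div₀]
      exact (div_lt_one₀ hW0).mpr hlt
    · rw [hx₄, map_div₀, hvx₃, map_div₀, hx12, sq]
      field_simp
    · rw [hs₄, hs₃]
      have : -(-s₁ - (x₁ * x₂ - E.a₄) / (x₁ * (s₁ + s₂)) + x₁ * x₂ * (s₁ + s₂) / (x₁ * x₂ - E.a₄)) - γ
          = (s₁ - γ) + (x₁ * x₂ - E.a₄) / (x₁ * (s₁ + s₂))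
            - x₁ * x₂ * (s₁ + s₂) / (x₁ * x₂ - E.a₄) := by ring
      rw [this]
      refine Valuation.map_sub_lt v (Valuation.map_add_lt v hs₁ ?_) ?_
      · rw [map_div₀, hvM, map_mul, hDv, mul_one, hx₁]
        exact (div_lt_one₀ (hx₁ ▸ hvx₁)).mpr ht1
      · rw [map_div₀, hvM, map_mul, hDv, mul_one, hx12]
        exact (div_lt_one₀ hW0).mpr hlt

theorem IsMC.sub_mem_E1_of_s_unit {E : WeierstrassCurve.Affine K} (hE : IsMC E)
    (h2 : v (2 : K) = 1)
    {σ : K →+* K} {τ : E.Point →+ E.Point} (hτ : InertiaAct v E σ τ)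
    {x s : K} (h : E.Nonsingular x (x * s)) (hx0 : x ≠ 0) (hs : v s = 1)
    (hxv : v (σ x - x) < v x) :
    InE1 v (τ (Point.some _ _ h) - Point.some _ _ h) := by
  obtain ⟨h₁, e₁'⟩ := hτ.act_s x s h
  obtain ⟨h₂, e₂'⟩ := hE.neg_s x s h
  rw [sub_eq_add_neg, e₁', e₂']
  have hσx : v (σ x) = v x := hτ.val_of_lt hxv
  have hvx : 0 < v x := (Valuation.pos_iff v).mpr hx0
  have hσx0 : σ x ≠ 0 := by
    intro h0; rw [h0, map_zero] at hσx; exact hvx.ne hσx
  have e₁ := hE.equation_s hσx0 h₁.1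
  have e₂ := hE.equation_s hx0 h₂.1
  have hDv : v (σ s + -s) < 1 := by
    rw [← sub_eq_add_neg]; exact hτ.triv s hs.le
  have hd := alg_diff e₁ e₂
  have hD' : v (σ s - -s) = 1 := by
    have : σ s - -s = 2 * s + (σ s + -s) := by ring
    rw [this]
    have h8 : v (2 * s) = 1 := by rw [map_mul, h2, hs, one_mul]
    rw [← h8]
    exact Valuation.map_add_eq_of_lt_left v (h8 ▸ hDv)
  have hD'0 : σ s - -s ≠ 0 := by
    intro h0; rw [h0] at hD'; simp at hD'
  by_cases hxx : σ x = x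
  · have hD0 : σ s + -s = 0 := by
      rw [hxx, sub_self, zero_mul] at hd
      rcases mul_eq_zero.1 hd with h9 | h9
      · exact absurd h9 (mul_ne_zero hx0 hx0)
      · rcases mul_eq_zero.1 h9 with h9 | h9
        · exact absurd h9 hD'0
        · exact h9
    have hy : σ x * σ s = E.negY x (x * -s) := by
      rw [hE.negY, hxx]; linear_combination x * hD0
    rw [Point.add_of_Y_eq hxx hy]
    trivial
  · obtain ⟨x₃, y₃, h₃, hadd, hx₃⟩ := hE.add_minus_x' hσx0 hx0 hxx h₁ h₂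
    rw [hadd]
    show 1 < v x₃
    have hxx0 : 0 < v (σ x - x) := (Valuation.pos_iff v).mpr (sub_ne_zero.2 hxx)
    rw [hx₃, map_div₀, map_mul, map_mul, map_pow, map_pow, hσx, hD', one_pow,
      mul_one, one_lt_div₀ (pow_pos hxx0 2), ← sq]
    exact pow_lt_pow_left₀ hxv zero_le two_ne_zero

theorem IsMC.sub_mem_E1_of_val_fixed {E : WeierstrassCurve.Affine K} (hE : IsMC E)
    (h2 : v (2 : K) = 1)
    {σ : K →+* K} {τ : E.Point →+ E.Point} (hτ : InertiaAct v E σ τ)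
    {x s : K} (h : E.Nonsingular x (x * s)) (hx0 : x ≠ 0) (hs : v s = 1)
    {δ : K} (hδ : σ δ = δ) (hxδ : v x = v δ) :
    InE1 v (τ (Point.some _ _ h) - Point.some _ _ h) := by
  apply hE.sub_mem_E1_of_s_unit h2 hτ h hx0 hs
  have hvx : 0 < v x := (Valuation.pos_iff v).mpr hx0
  have hδ0 : δ ≠ 0 := by
    rintro rfl; rw [map_zero] at hxδ; exact hvx.ne' hxδ
  have hη : v (x / δ) = 1 := by rw [map_div₀, hxδ, div_self (hxδ ▸ hvx).ne']
  have h1 := hτ.triv (x / δ) hη.le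
  have h3 : σ x - x = δ * (σ (x / δ) - x / δ) := by
    rw [map_div₀, hδ]; field_simp
  rw [h3, map_mul, hxδ]
  exact mul_lt_of_lt_one_right (hxδ ▸ hvx) h1

theorem IsMC.mult_induction {E : WeierstrassCurve.Affine K} (hE : IsMC E)
    (h2 : v (2 : K) = 1) (hT : E.Nonsingular 0 0) {γ : K} (hγ : v γ = 1)
    {P : E.Point} {x₀ : K} (hP : IsPos v γ P x₀) (k : ℕ) (hk : 1 ≤ k) :
    (∃ j : ℕ, IsPos v γ (k • P + j • Point.some 0 0 hT) (x₀ ^ k / E.a₄ ^ j)) ∨
    ∃ k' : ℕ, 1 ≤ k' ∧ k' ≤ k ∧ ∃ j : ℕ, InE0 v (k' • P + j • Point.some 0 0 hT) ∧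
      v (x₀ ^ k') = v (E.a₄ ^ j) := by
  have hW0 : E.a₄ ≠ 0 := by
    have := (nonsingular_zero.1 hT).2
    rcases this with h | h
    · exact absurd hE.a₃ h
    · exact h
  induction k, hk using Nat.le_induction with
  | base =>
    left
    refine ⟨0, ?_⟩
    simpa using hP
  | succ k hk ih =>
    rcases ih with ⟨j, hQ⟩ | ⟨k', h1, h2', j, h3, h4⟩
    · obtain ⟨ha, hb, hc⟩ := hE.pos_add_pos h2 hT hγ hQ hP
      have et : x₀ ^ k / E.a₄ ^ j * x₀ = x₀ ^ (k + 1) / E.a₄ ^ j := by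
        rw [pow_succ]; ring
      have eP : k • P + j • Point.some 0 0 hT + P = (k + 1) • P + j • Point.some 0 0 hT := by
        rw [succ_nsmul]; abel
      have eP' : k • P + j • Point.some 0 0 hT + P + Point.some 0 0 hT
          = (k + 1) • P + (j + 1) • Point.some 0 0 hT := by
        rw [succ_nsmul, succ_nsmul]; abel
      rw [et, eP] at ha
      rw [et, eP'] at hb hc
      rcases lt_trichotomy (v (x₀ ^ (k + 1) / E.a₄ ^ j)) (v E.a₄) with h | h | h
      · left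
        refine ⟨j + 1, ?_⟩
        have := hc h
        rwa [div_div, ← pow_succ] at this
      · right
        refine ⟨k + 1, by omega, le_rfl, j + 1, hb h, ?_⟩
        rw [map_div₀, div_eq_iff ((Valuation.ne_zero_iff v).mpr (pow_ne_zero j hW0))] at h
        rw [h, pow_succ, map_mul, mul_comm]
      · left
        exact ⟨j, ha h⟩
    · right
      exact ⟨k', h1, by omega, j, h3, h4⟩

/-- if `τ` fixes a nonzero multiple `k • P` (`0 < k < p`) of a `p`-torsion point, it fixes `P`. -/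
theorem fixed_of_multiple_fixed {G : Type*} [AddCommGroup G] (τ : G →+ G) (P : G) (p k : ℕ)
    (hp : p.Prime) (hk1 : 1 ≤ k) (hkp : k < p) (hpP : p • P = 0) (h : τ (k • P) = k • P) :
    τ P = P := by
  have hcop : Nat.Coprime k p := by
    rw [Nat.coprime_comm]
    exact (Nat.Prime.coprime_iff_not_dvd hp).2 (fun hd => by
      have := Nat.le_of_dvd (by omega) hd
      omega)
  obtain ⟨m, hm⟩ := Nat.exists_mul_mod_eq_one_of_coprime hcop hp.one_lt
  have e : k * m = p * (k * m / p) + 1 := by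
    have := Nat.div_add_mod (k * m) p
    omega
  have hP : m • (k • P) = P := by
    rw [← mul_nsmul', mul_comm m k, e, add_nsmul, mul_comm p, mul_nsmul', one_nsmul, hpP]
    simp
  rw [← hP, map_nsmul, h]


/-- Multiplicative reduction with `v W` a `p`-th power of the valuation of a `σ`-fixed element:
inertia acts trivially on `p`-torsion. -/
theorem IsMC.mult_fixed {E : WeierstrassCurve.Affine K} (hE : IsMC E)
    (hU : v E.a₂ ≤ 1) (hW : v E.a₄ < 1) (hW0 : E.a₄ ≠ 0)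
    (hdisc : v (E.a₂ ^ 2 - 4 * E.a₄) = 1) (h2 : v (2 : K) = 1)
    {σ : K →+* K} {τ : E.Point →+ E.Point} (hτ : InertiaAct v E σ τ)
    (p : ℕ) (hpp : p.Prime) (hp : v (p : K) = 1) {d : K} (hd : σ d = d) (hWd : v E.a₄ = v d ^ p)
    (P : E.Point) (hpP : p • P = 0) : τ P = P := by
  have hT := hE.nonsingular_T hW0
  by_cases hP0 : InE0 v P
  · exact hE.fixed_of_sub_mem_E1 hU hW.le P p hp hpP
      (hE.sub_mem_E1_of_E0 hU hW.le hdisc h2 hτ P hP0)
  by_cases hP1 : InE0 v (P + Point.some 0 0 hT)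
  · refine hE.fixed_of_sub_mem_E1 hU hW.le P p hp hpP
      (hE.sub_mem_E1_of_E0_T hU hW.le hdisc h2 hτ hT P 1 ?_)
    rwa [one_nsmul]
  rcases P with _ | ⟨x, y, h⟩
  · exact absurd trivial hP0
  have hx1 : v x < 1 := not_le.1 hP0
  have hxW : v E.a₄ < v x := by
    by_contra hc
    exact hP1 (hE.E0_add_T_of_le hT h (not_lt.1 hc))
  have hx0 : x ≠ 0 := by
    rintro rfl
    rw [map_zero] at hxW; simp at hxW
  have hvx : 0 < v x := (Valuation.pos_iff v).mpr hx0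
  obtain ⟨s, h', e'⟩ := exists_s h hx0
  rw [e'] at hpP ⊢
  have e := hE.equation_s hx0 h'.1
  -- `U` is a unit
  have h4 : v (4 : K) ≤ 1 := by
    have := v_natCast_le_one v 4
    simpa using this
  have hUu : v E.a₂ = 1 := by
    have h5 : v (E.a₂ ^ 2) = 1 := by
      have : E.a₂ ^ 2 = (E.a₂ ^ 2 - 4 * E.a₄) + 4 * E.a₄ := by ring
      rw [this, ← hdisc]
      apply Valuation.map_add_eq_of_lt_left
      rw [hdisc, map_mul]
      exact Right.mul_lt_one_of_le_of_lt h4 hW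
    rw [map_pow] at h5
    exact (pow_eq_one_iff_left two_ne_zero).mp h5
  -- `s` is a unit
  have hs : v s = 1 := by
    have h5 : v (s ^ 2) = 1 := by
      have : s ^ 2 = E.a₂ + (x + E.a₄ / x) := by
        field_simp
        linear_combination e
      rw [this, ← hUu]
      apply Valuation.map_add_eq_of_lt_left
      rw [hUu]
      apply Valuation.map_add_lt v hx1
      rw [map_div₀]
      exact (div_lt_one₀ hvx).mpr hxW
    rw [map_pow] at h5
    exact (pow_eq_one_iff_left two_ne_zero).mp h5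
  have hPos : IsPos v s (Point.some _ _ h') x :=
    ⟨hxW, hx1, x, s, h', rfl, rfl, by simp⟩
  rcases hE.mult_induction h2 hT hs hPos p hpp.one_le with ⟨j, hj⟩ | ⟨k', hk1, hk2, j, hj1, hj2⟩
  · exfalso
    rw [hpP, zero_add] at hj
    obtain ⟨ht1, -, x', s', h'', e'', hx', -⟩ := hj
    have hx'0 : x' ≠ 0 := by
      rintro rfl
      rw [map_zero] at hx'; rw [← hx'] at ht1; simp at ht1
    rcases hE.nsmul_T hT j with h0 | h0
    · rw [h0] at e''
      exact Point.some_ne_zero _ e''.symm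
    · rw [h0] at e''
      simp only [Point.some.injEq] at e''
      exact hx'0 e''.1.symm
  · rcases lt_or_eq_of_le hk2 with hk2 | rfl
    · apply fixed_of_multiple_fixed τ _ p k' hpp hk1 hk2 hpP
      apply hE.fixed_of_sub_mem_E1 hU hW.le _ p hp
      · rw [← mul_nsmul', mul_comm, mul_nsmul', hpP, smul_zero]
      · exact hE.sub_mem_E1_of_E0_T hU hW.le hdisc h2 hτ hT _ j hj1
    · apply hE.fixed_of_sub_mem_E1 hU hW.le _ k' hp hpP
      apply hE.sub_mem_E1_of_val_fixed h2 hτ h' hx0 hs (δ := d ^ j) (by rw [map_pow, hd])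
      rw [map_pow, map_pow, hWd, ← pow_mul, mul_comm, pow_mul] at hj2
      rw [map_pow]
      exact (pow_left_inj hpp.ne_zero).mp hj2

end Fermat.Agent.S05
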