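import Fermat.Agent.S05.Alg

/-!
# S05, part D: the change of variables from the Frey model to the model curve, on points.
-/

set_option autoImplicit false

namespace Fermat.Agent.S05

open WeierstrassCurve WeierstrassCurve.Affine

variable {K : Type*} [Field K] [DecidableEq K]

/-- Data saying that `(x, y) ↦ (4 x + ρ, 8 y + 4 x)` maps `W₁ : y² + x y = x³ + a₂ x² + a₄ x`
to the model curve `W₂`. -/
structure IsTransfer (W₁ W₂ : WeierstrassCurve.Affine K) (ρ : K) : Prop where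
  two : (2 : K) ≠ 0
  a₁ : W₁.a₁ = 1
  a₃ : W₁.a₃ = 0
  a₆ : W₁.a₆ = 0
  mc : IsMC W₂
  r1 : W₂.a₂ = 4 * W₁.a₂ + 1 - 3 * ρ
  r2 : W₂.a₄ = 16 * W₁.a₄ - 3 * ρ ^ 2 - 2 * W₂.a₂ * ρ
  r3 : ρ ^ 3 + W₂.a₂ * ρ ^ 2 + W₂.a₄ * ρ = 0

namespace IsTransfer

variable {W₁ W₂ : WeierstrassCurve.Affine K} {ρ : K}

omit [DecidableEq K] in
theorem nonsingular (H : IsTransfer W₁ W₂ ρ) {x y : K} (h : W₁.Nonsingular x y) :
    W₂.Nonsingular (4 * x + ρ) (8 * y + 4 * x) := by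
  rw [nonsingular_iff'] at h ⊢
  obtain ⟨he, hd⟩ := h
  rw [equation_iff] at he
  rw [H.a₁, H.a₃, H.a₆] at he
  rw [H.a₁, H.a₃] at hd
  have h2 := H.two
  refine ⟨?_, ?_⟩
  · rw [H.mc.equation_iff]
    have r1 := H.r1
    have r2 := H.r2
    have r3 := H.r3
    rw [r2] at r3 ⊢
    rw [r1] at r3 ⊢
    linear_combination 64 * he - r3
  · rw [H.mc.a₁, H.mc.a₃]
    by_contra hc
    push Not at hc
    obtain ⟨c1, c2⟩ := hc
    have hy : 2 * y + 1 * x + 0 = 0 := by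
      have : (2:K) ^ 3 * (2 * y + 1 * x + 0) = 0 := by linear_combination c2
      rcases mul_eq_zero.1 this with h | h
      · exact absurd h (pow_ne_zero 3 h2)
      · exact h
    have hx : 1 * y - (3 * x ^ 2 + 2 * W₁.a₂ * x + W₁.a₄) = 0 := by
      have r1 := H.r1
      have r2 := H.r2
      rw [r2, r1] at c1
      have : (2:K) ^ 4 * (1 * y - (3 * x ^ 2 + 2 * W₁.a₂ * x + W₁.a₄)) = 0 := by
        linear_combination c1 + 8 * hy
      rcases mul_eq_zero.1 this with h | h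
      · exact absurd h (pow_ne_zero 4 h2)
      · exact h
    rcases hd with hd | hd
    · exact hd hx
    · exact hd hy


omit [DecidableEq K] in
theorem negY_eq (H : IsTransfer W₁ W₂ ρ) (x y : K) :
    W₂.negY (4 * x + ρ) (8 * y + 4 * x) = 8 * W₁.negY x y + 4 * x := by
  rw [H.mc.negY, negY, H.a₁, H.a₃]; ring

theorem slope_eq (H : IsTransfer W₁ W₂ ρ) {x₁ x₂ y₁ y₂ : K}
    (h₁ : W₁.Equation x₁ y₁) (h₂ : W₁.Equation x₂ y₂)
    (hxy : ¬(x₁ = x₂ ∧ y₁ = W₁.negY x₂ y₂)) :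
    W₂.slope (4 * x₁ + ρ) (4 * x₂ + ρ) (8 * y₁ + 4 * x₁) (8 * y₂ + 4 * x₂)
      = 2 * W₁.slope x₁ x₂ y₁ y₂ + 1 := by
  have h2 := H.two
  have h4 : (4 : K) ≠ 0 := by
    have : (4 : K) = 2 ^ 2 := by norm_num
    rw [this]; exact pow_ne_zero 2 h2
  have h8 : (8 : K) ≠ 0 := by
    have : (8 : K) = 2 ^ 3 := by norm_num
    rw [this]; exact pow_ne_zero 3 h2
  by_cases hx : x₁ = x₂
  · subst hx
    have hy : y₁ ≠ W₁.negY x₁ y₂ := fun h => hxy ⟨rfl, h⟩
    have hy' : 8 * y₁ + 4 * x₁ ≠ W₂.negY (4 * x₁ + ρ) (8 * y₂ + 4 * x₁) := by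
      rw [H.negY_eq]
      intro h
      apply hy
      apply mul_left_cancel₀ h8
      linear_combination h
    rw [slope_of_Y_ne rfl hy, slope_of_Y_ne rfl hy', H.negY_eq, H.mc.a₁, H.a₁]
    obtain rfl := Y_eq_of_Y_ne h₁ h₂ rfl hy
    have hd : y₁ - W₁.negY x₁ y₁ ≠ 0 := sub_ne_zero.2 hy
    have e : 8 * y₁ + 4 * x₁ - (8 * W₁.negY x₁ y₁ + 4 * x₁) = 8 * (y₁ - W₁.negY x₁ y₁) := by ring
    rw [e, H.r2, H.r1]
    have e2 : W₁.negY x₁ y₁ = -y₁ - x₁ := by rw [negY, H.a₁, H.a₃]; ring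
    rw [e2] at hd ⊢
    field_simp
    ring
  · have hx' : 4 * x₁ + ρ ≠ 4 * x₂ + ρ := by
      intro h
      apply hx
      apply mul_left_cancel₀ h4
      linear_combination h
    rw [slope_of_X_ne hx, slope_of_X_ne hx']
    have hx'' : x₁ - x₂ ≠ 0 := sub_ne_zero.2 hx
    have e : 4 * x₁ + ρ - (4 * x₂ + ρ) = 4 * (x₁ - x₂) := by ring
    rw [e]
    field_simp
    ring


/-- The transfer map on points. -/
def toFun (H : IsTransfer W₁ W₂ ρ) : W₁.Point → W₂.Point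
  | .zero => 0
  | .some _ _ h => .some _ _ (H.nonsingular h)

theorem toFun_add (H : IsTransfer W₁ W₂ ρ) (P Q : W₁.Point) :
    H.toFun (P + Q) = H.toFun P + H.toFun Q := by
  have h2 := H.two
  have h4 : (4 : K) ≠ 0 := by
    have : (4 : K) = 2 ^ 2 := by norm_num
    rw [this]; exact pow_ne_zero 2 h2
  have h8 : (8 : K) ≠ 0 := by
    have : (8 : K) = 2 ^ 3 := by norm_num
    rw [this]; exact pow_ne_zero 3 h2
  rcases P with _ | ⟨x₁, y₁, h₁⟩
  · rw [← Point.zero_def, zero_add]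
    show _ = 0 + _
    rw [zero_add]
  rcases Q with _ | ⟨x₂, y₂, h₂⟩
  · rw [← Point.zero_def, add_zero]
    show _ = _ + 0
    rw [add_zero]
  by_cases hxy : x₁ = x₂ ∧ y₁ = W₁.negY x₂ y₂
  · rw [Point.add_of_Y_eq hxy.1 hxy.2]
    show 0 = Point.some _ _ _ + Point.some _ _ _
    rw [Point.add_of_Y_eq (by rw [hxy.1]) (by rw [H.negY_eq, hxy.2, hxy.1])]
  · have hxy' : ¬(4 * x₁ + ρ = 4 * x₂ + ρ ∧
        8 * y₁ + 4 * x₁ = W₂.negY (4 * x₂ + ρ) (8 * y₂ + 4 * x₂)) := by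
      rintro ⟨ha, hb⟩
      have hx : x₁ = x₂ := by
        apply mul_left_cancel₀ h4
        linear_combination ha
      apply hxy
      refine ⟨hx, ?_⟩
      rw [H.negY_eq, hx] at hb
      apply mul_left_cancel₀ h8
      linear_combination hb
    rw [Point.add_some hxy]
    show Point.some _ _ _ = Point.some _ _ _ + Point.some _ _ _
    rw [Point.add_some hxy']
    have hs := H.slope_eq h₁.1 h₂.1 hxy
    have hX : 4 * W₁.addX x₁ x₂ (W₁.slope x₁ x₂ y₁ y₂) + ρ =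
        W₂.addX (4 * x₁ + ρ) (4 * x₂ + ρ)
          (W₂.slope (4 * x₁ + ρ) (4 * x₂ + ρ) (8 * y₁ + 4 * x₁) (8 * y₂ + 4 * x₂)) := by
      rw [hs, addX, addX, H.a₁, H.mc.a₁, H.r1]; ring
    have hY : 8 * W₁.addY x₁ x₂ y₁ (W₁.slope x₁ x₂ y₁ y₂)
          + 4 * W₁.addX x₁ x₂ (W₁.slope x₁ x₂ y₁ y₂) =
        W₂.addY (4 * x₁ + ρ) (4 * x₂ + ρ) (8 * y₁ + 4 * x₁)
          (W₂.slope (4 * x₁ + ρ) (4 * x₂ + ρ) (8 * y₁ + 4 * x₁) (8 * y₂ + 4 * x₂)) := by
      rw [addY, addY, negAddY, negAddY, ← hX, hs, H.mc.negY, negY, H.a₁, H.a₃]; ring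
    simp only [Point.some.injEq]
    exact ⟨hX, hY⟩

/-- The transfer map as an additive homomorphism. -/
def hom (H : IsTransfer W₁ W₂ ρ) : W₁.Point →+ W₂.Point where
  toFun := H.toFun
  map_zero' := rfl
  map_add' := H.toFun_add

theorem hom_some (H : IsTransfer W₁ W₂ ρ) {x y : K} (h : W₁.Nonsingular x y) :
    H.hom (Point.some x y h) = Point.some _ _ (H.nonsingular h) := rfl

theorem hom_injective (H : IsTransfer W₁ W₂ ρ) : Function.Injective H.hom := by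
  have h2 := H.two
  have h4 : (4 : K) ≠ 0 := by
    have : (4 : K) = 2 ^ 2 := by norm_num
    rw [this]; exact pow_ne_zero 2 h2
  have h8 : (8 : K) ≠ 0 := by
    have : (8 : K) = 2 ^ 3 := by norm_num
    rw [this]; exact pow_ne_zero 3 h2
  rintro (_ | ⟨x₁, y₁, h₁⟩) (_ | ⟨x₂, y₂, h₂⟩) h
  · rfl
  · exact absurd h.symm (Point.some_ne_zero _)
  · exact absurd h (Point.some_ne_zero _)
  · rw [hom_some, hom_some] at h
    simp only [Point.some.injEq] at h ⊢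
    have hx : x₁ = x₂ := by
      apply mul_left_cancel₀ h4
      linear_combination h.1
    refine ⟨hx, ?_⟩
    apply mul_left_cancel₀ h8
    have := h.2
    rw [hx] at this
    linear_combination this

end IsTransfer

end Fermat.Agent.S05
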