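import Fermat.Statements.S05
import Fermat.Agent.S05.Mult
import Fermat.Agent.S05.Transfer

/-!
# S05, part D': specialisation to the algebraic closure of the rationals and the Frey curve.
-/

set_option autoImplicit false

namespace Fermat.Agent.S05

open WeierstrassCurve WeierstrassCurve.Affine WeierstrassCurve.Affine.Point

local notation "Qbar" => AlgebraicClosure ℚ

/-- unpacking membership in the inertia subgroup. -/
theorem inertia_unpack {A : ValuationSubring Qbar} {σ : Qbar ≃ₐ[ℚ] Qbar}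
    (hσ : σ ∈ A.inertiaSubgroupIn ℚ) :
    ∀ a : Qbar, A.valuation a ≤ 1 → A.valuation (σ a - a) < 1 := by
  obtain ⟨g, hg, rfl⟩ := hσ
  intro a ha
  rw [ValuationSubring.valuation_le_one_iff] at ha
  have h1 : g • (IsLocalRing.residue A ⟨a, ha⟩) = IsLocalRing.residue A ⟨a, ha⟩ := by
    have := RingEquiv.congr_fun (MonoidHom.mem_ker.1 hg) (IsLocalRing.residue A ⟨a, ha⟩)
    exact this
  rw [← IsLocalRing.ResidueField.residue_smul, ← sub_eq_zero, ← map_sub,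
    IsLocalRing.residue_eq_zero_iff, ValuationSubring.valuation_lt_one_iff] at h1
  exact h1

/-- The model curve over `ℚ`. -/
def mcQ (u w : ℚ) : WeierstrassCurve ℚ := ⟨0, u, 0, w, 0⟩

theorem isMC_mcQ (u w : ℚ) : IsMC ((mcQ u w)⁄Qbar) where
  a₁ := by simp [mcQ]
  a₃ := by simp [mcQ]
  a₆ := by simp [mcQ]

theorem mcQ_a₂ (u w : ℚ) : ((mcQ u w)⁄Qbar).a₂ = algebraMap ℚ Qbar u := by simp [mcQ]
theorem mcQ_a₄ (u w : ℚ) : ((mcQ u w)⁄Qbar).a₄ = algebraMap ℚ Qbar w := by simp [mcQ]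

theorem inertiaAct_mcQ (u w : ℚ) {A : ValuationSubring Qbar} {σ : Qbar ≃ₐ[ℚ] Qbar}
    (hσ : σ ∈ A.inertiaSubgroupIn ℚ) :
    InertiaAct A.valuation ((mcQ u w)⁄Qbar) (σ : Qbar →+* Qbar)
      (Point.map (W' := mcQ u w) σ.toAlgHom) where
  triv := inertia_unpack hσ
  act _ _ h := ⟨_, Point.map_some (W' := mcQ u w) σ.toAlgHom h⟩


theorem isTransfer_frey (P : FreyPackage) (u w ρ : ℚ)
    (r1 : u = 4 * P.freyCurve.a₂ + 1 - 3 * ρ)
    (r2 : w = 16 * P.freyCurve.a₄ - 3 * ρ ^ 2 - 2 * u * ρ)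
    (r3 : ρ ^ 3 + u * ρ ^ 2 + w * ρ = 0) :
    IsTransfer (P.freyCurve⁄Qbar) ((mcQ u w)⁄Qbar) (algebraMap ℚ Qbar ρ) where
  two := two_ne_zero
  a₁ := by simp [FreyPackage.freyCurve]
  a₃ := by simp [FreyPackage.freyCurve]
  a₆ := by simp [FreyPackage.freyCurve]
  mc := isMC_mcQ u w
  r1 := by
    rw [mcQ_a₂]
    have := congrArg (algebraMap ℚ Qbar) r1
    simpa using this
  r2 := by
    rw [mcQ_a₂, mcQ_a₄]
    have := congrArg (algebraMap ℚ Qbar) r2
    simpa using this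
  r3 := by
    rw [mcQ_a₂, mcQ_a₄]
    have := congrArg (algebraMap ℚ Qbar) r3
    simpa using this

theorem transfer_equivariant (P : FreyPackage) {u w ρ : ℚ}
    (H : IsTransfer (P.freyCurve⁄Qbar) ((mcQ u w)⁄Qbar) (algebraMap ℚ Qbar ρ))
    (σ : Qbar ≃ₐ[ℚ] Qbar) (Q : (P.freyCurve⁄Qbar).Point) :
    H.hom (σ • Q) = Point.map (W' := mcQ u w) σ.toAlgHom (H.hom Q) := by
  rcases Q with _ | ⟨x, y, h⟩
  · rfl
  · rw [algEquiv_smul_def, Point.map_some, IsTransfer.hom_some, IsTransfer.hom_some, Point.map_some]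
    simp only [Point.some.injEq]
    have h4 : σ (4 : Qbar) = 4 := map_ofNat σ 4
    have h8 : σ (8 : Qbar) = 8 := map_ofNat σ 8
    constructor
    · simp [h4]
    · simp [h4, h8]

/-- reduction of the statement to the model curve. -/
theorem frey_fixed_of_model (P : FreyPackage) (u w ρ : ℚ)
    (r1 : u = 4 * P.freyCurve.a₂ + 1 - 3 * ρ)
    (r2 : w = 16 * P.freyCurve.a₄ - 3 * ρ ^ 2 - 2 * u * ρ)
    (r3 : ρ ^ 3 + u * ρ ^ 2 + w * ρ = 0) (σ : Qbar ≃ₐ[ℚ] Qbar)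
    (hfix : ∀ R : ((mcQ u w)⁄Qbar).Point, P.p • R = 0 →
      Point.map (W' := mcQ u w) σ.toAlgHom R = R)
    (x : Submodule.torsionBy ℤ (P.freyCurve⁄Qbar).Point P.p) : σ • x = x := by
  have H := isTransfer_frey P u w ρ r1 r2 r3
  apply Subtype.ext
  show σ • (x : (P.freyCurve⁄Qbar).Point) = x
  apply H.hom_injective
  rw [transfer_equivariant P H]
  apply hfix
  rw [← map_nsmul]
  have hx := x.2
  rw [Submodule.mem_torsionBy_iff] at hx
  have : P.p • (x : (P.freyCurve⁄Qbar).Point) = 0 := by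
    rw [← hx, Nat.cast_smul_eq_nsmul]
  rw [this, _root_.map_zero]

section ints

variable {A : ValuationSubring Qbar} {q : ℕ}

theorem val_int_le (A : ValuationSubring Qbar) (n : ℤ) : A.valuation (n : Qbar) ≤ 1 := by
  rw [ValuationSubring.valuation_le_one_iff]
  exact intCast_mem A n

theorem val_int_lt (hA : A.LiesOverPrime q) {n : ℤ} (h : (q : ℤ) ∣ n) :
    A.valuation (n : Qbar) < 1 := by
  obtain ⟨m, rfl⟩ := h
  have hq : A.valuation (q : Qbar) < 1 := (ValuationSubring.mem_nonunits_iff A).1 hA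
  push_cast
  rw [map_mul]
  exact mul_lt_one_of_lt_of_le hq (val_int_le A m)

theorem val_int_eq_one (hA : A.LiesOverPrime q) (hq : q.Prime) {n : ℤ} (h : ¬ (q : ℤ) ∣ n) :
    A.valuation (n : Qbar) = 1 := by
  have hcop : IsCoprime (q : ℤ) n :=
    (Prime.coprime_iff_not_dvd (Nat.prime_iff_prime_int.1 hq)).2 h
  obtain ⟨a, b, hab⟩ := hcop
  by_contra hc
  have hn : A.valuation (n : Qbar) < 1 := lt_of_le_of_ne (val_int_le A n) hc
  have hq' : A.valuation (q : Qbar) < 1 := (ValuationSubring.mem_nonunits_iff A).1 hA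
  have h1 : ((a : Qbar) * (q : Qbar) + (b : Qbar) * (n : Qbar)) = 1 := by
    exact_mod_cast congrArg (Int.cast : ℤ → Qbar) hab
  have h2 : A.valuation ((a : Qbar) * (q : Qbar) + (b : Qbar) * (n : Qbar)) < 1 := by
    apply Valuation.map_add_lt
    · rw [map_mul]; exact Right.mul_lt_one_of_le_of_lt (val_int_le A a) hq'
    · rw [map_mul]; exact Right.mul_lt_one_of_le_of_lt (val_int_le A b) hn
  rw [h1, map_one] at h2
  exact lt_irrefl _ h2

end ints

/-- The local theorem for the model curve with integer coefficients `u`, `w = d ^ p`. -/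
theorem model_fixed {A : ValuationSubring Qbar} {q : ℕ} (hA : A.LiesOverPrime q) (hq : q.Prime)
    (hq2 : q ≠ 2) {p : ℕ} (hp : p.Prime) (hqp : q ≠ p) (uZ d : ℤ) (hd0 : d ≠ 0)
    (hdisc : ¬ (q : ℤ) ∣ uZ ^ 2 - 4 * d ^ p)
    {σ : Qbar ≃ₐ[ℚ] Qbar} (hσ : σ ∈ A.inertiaSubgroupIn ℚ)
    (R : ((mcQ (uZ : ℚ) ((d ^ p : ℤ) : ℚ))⁄Qbar).Point) (hR : p • R = 0) :
    Point.map (W' := mcQ (uZ : ℚ) ((d ^ p : ℤ) : ℚ)) σ.toAlgHom R = R := by
  have hE := isMC_mcQ (uZ : ℚ) ((d ^ p : ℤ) : ℚ)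
  have hτ := inertiaAct_mcQ (uZ : ℚ) ((d ^ p : ℤ) : ℚ) hσ
  have e2 : ((mcQ (uZ : ℚ) ((d ^ p : ℤ) : ℚ))⁄Qbar).a₂ = (uZ : Qbar) := by
    rw [mcQ_a₂]; simp
  have e4 : ((mcQ (uZ : ℚ) ((d ^ p : ℤ) : ℚ))⁄Qbar).a₄ = ((d ^ p : ℤ) : Qbar) := by
    rw [mcQ_a₄]; simp
  have hU : A.valuation ((mcQ (uZ : ℚ) ((d ^ p : ℤ) : ℚ))⁄Qbar).a₂ ≤ 1 := by
    rw [e2]; exact val_int_le A uZ
  have hD : A.valuation (((mcQ (uZ : ℚ) ((d ^ p : ℤ) : ℚ))⁄Qbar).a₂ ^ 2
      - 4 * ((mcQ (uZ : ℚ) ((d ^ p : ℤ) : ℚ))⁄Qbar).a₄) = 1 := by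
    rw [e2, e4]
    have := val_int_eq_one hA hq hdisc
    push_cast at this ⊢
    exact this
  have h2 : A.valuation (2 : Qbar) = 1 := by
    have : ¬ (q : ℤ) ∣ 2 := by
      intro h
      have h' : q ∣ 2 := by exact_mod_cast h
      exact hq2 ((Nat.prime_dvd_prime_iff_eq hq Nat.prime_two).1 h')
    have := val_int_eq_one hA hq this
    simpa using this
  have hpv : A.valuation (p : Qbar) = 1 := by
    have : ¬ (q : ℤ) ∣ (p : ℤ) := by
      intro h
      have h' : q ∣ p := by exact_mod_cast h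
      exact hqp ((Nat.prime_dvd_prime_iff_eq hq hp).1 h')
    have := val_int_eq_one hA hq this
    simpa using this
  by_cases hw : (q : ℤ) ∣ d ^ p
  · refine hE.mult_fixed hU ?_ ?_ hD h2 hτ p hp hpv (d := (d : Qbar)) ?_ ?_ R hR
    · rw [e4]; exact val_int_lt hA hw
    · rw [e4]
      exact_mod_cast pow_ne_zero p hd0
    · simp
    · rw [e4]; push_cast; rw [map_pow]
  · refine hE.good_fixed hU ?_ hD h2 hτ R p hpv hR
    rw [e4]; exact val_int_eq_one hA hq hw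

end Fermat.Agent.S05
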