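import Mathlib.AlgebraicGeometry.EllipticCurve.Affine.Point
import Mathlib.AlgebraicGeometry.EllipticCurve.VariableChange

/-!
# Admissible changes of variables act on points (part D of S05)

For a field `F`, a Weierstrass curve `W` over `F` and `C : VariableChange F`, the map
`(x, y) ↦ (u²x + r, u³y + u²sx + t)` is an isomorphism of groups from the points of `C • W`
to the points of `W`.
-/

set_option autoImplicit false

namespace Fermat.Agent.S05

open WeierstrassCurve WeierstrassCurve.Affine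

variable {F : Type*} [Field F] (W : WeierstrassCurve F) (C : VariableChange F)

/-- the `x`-coordinate of the image point -/
def vcX (x : F) : F := (C.u : F) ^ 2 * x + C.r

/-- the `y`-coordinate of the image point -/
def vcY (x y : F) : F := (C.u : F) ^ 3 * y + (C.u : F) ^ 2 * C.s * x + C.t

lemma vc_u_ne_zero : (C.u : F) ≠ 0 := C.u.ne_zero

lemma vcX_injective : Function.Injective (vcX C) := by
  intro x x' h
  have hu := vc_u_ne_zero C
  simp only [vcX] at h
  have : (C.u : F) ^ 2 * x = (C.u : F) ^ 2 * x' := by linear_combination h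
  exact mul_left_cancel₀ (pow_ne_zero 2 hu) this

lemma vcY_injective (x : F) : Function.Injective (vcY C x) := by
  intro y y' h
  have hu := vc_u_ne_zero C
  simp only [vcY] at h
  have : (C.u : F) ^ 3 * y = (C.u : F) ^ 3 * y' := by linear_combination h
  exact mul_left_cancel₀ (pow_ne_zero 3 hu) this

lemma vc_equation_aux (x y : F) :
    (vcY C x y) ^ 2 + W.a₁ * (vcX C x) * (vcY C x y) + W.a₃ * (vcY C x y)
        - ((vcX C x) ^ 3 + W.a₂ * (vcX C x) ^ 2 + W.a₄ * (vcX C x) + W.a₆) =
      (C.u : F) ^ 6 * (y ^ 2 + (C • W).a₁ * x * y + (C • W).a₃ * y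
        - (x ^ 3 + (C • W).a₂ * x ^ 2 + (C • W).a₄ * x + (C • W).a₆)) := by
  have hu := vc_u_ne_zero C
  simp only [vcX, vcY, variableChange_a₁, variableChange_a₂, variableChange_a₃, variableChange_a₄,
    variableChange_a₆, Units.val_inv_eq_inv_val]
  field_simp
  ring

lemma vc_equation (x y : F) :
    (C • W).toAffine.Equation x y ↔ W.toAffine.Equation (vcX C x) (vcY C x y) := by
  have hu := vc_u_ne_zero C
  rw [equation_iff', equation_iff', vc_equation_aux]
  constructor
  · intro h; rw [h, mul_zero]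
  · intro h; exact (mul_eq_zero.mp h).resolve_left (pow_ne_zero 6 hu)

lemma vc_polyY (x y : F) :
    2 * (vcY C x y) + W.a₁ * (vcX C x) + W.a₃ =
      (C.u : F) ^ 3 * (2 * y + (C • W).a₁ * x + (C • W).a₃) := by
  have hu := vc_u_ne_zero C
  simp only [vcX, vcY, variableChange_a₁, variableChange_a₃, Units.val_inv_eq_inv_val]
  field_simp
  ring

lemma vc_polyX (x y : F) :
    W.a₁ * (vcY C x y) - (3 * (vcX C x) ^ 2 + 2 * W.a₂ * (vcX C x) + W.a₄) =
      (C.u : F) ^ 4 * ((C • W).a₁ * y - (3 * x ^ 2 + 2 * (C • W).a₂ * x + (C • W).a₄))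
        - C.s * ((C.u : F) ^ 3 * (2 * y + (C • W).a₁ * x + (C • W).a₃)) := by
  have hu := vc_u_ne_zero C
  simp only [vcX, vcY, variableChange_a₁, variableChange_a₂, variableChange_a₃, variableChange_a₄,
    Units.val_inv_eq_inv_val]
  field_simp
  ring

lemma vc_nonsingular (x y : F) :
    (C • W).toAffine.Nonsingular x y ↔ W.toAffine.Nonsingular (vcX C x) (vcY C x y) := by
  have hu := vc_u_ne_zero C
  rw [nonsingular_iff', nonsingular_iff', ← vc_equation, vc_polyX, vc_polyY]
  refine and_congr_right fun _ => ?_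
  set a := (C • W).a₁ * y - (3 * x ^ 2 + 2 * (C • W).a₂ * x + (C • W).a₄) with ha
  set b := 2 * y + (C • W).a₁ * x + (C • W).a₃ with hb
  constructor
  · rintro (h | h)
    · by_cases hb0 : b = 0
      · left
        rw [hb0, mul_zero, mul_zero, sub_zero]
        exact mul_ne_zero (pow_ne_zero 4 hu) h
      · right
        exact mul_ne_zero (pow_ne_zero 3 hu) hb0
    · right
      exact mul_ne_zero (pow_ne_zero 3 hu) h
  · rintro (h | h)
    · by_cases hb0 : b = 0
      · left
        rw [hb0] at h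
        intro ha0
        apply h
        rw [ha0]; ring
      · right; exact hb0
    · right
      intro hb0
      apply h
      rw [hb0, mul_zero]

lemma vc_negY (x y : F) :
    W.toAffine.negY (vcX C x) (vcY C x y) = vcY C x ((C • W).toAffine.negY x y) := by
  have hu := vc_u_ne_zero C
  simp only [negY, vcX, vcY, variableChange_a₁, variableChange_a₃, Units.val_inv_eq_inv_val]
  field_simp
  ring

variable [DecidableEq F]

lemma vc_slope {x₁ x₂ y₁ y₂ : F} (h₁ : (C • W).toAffine.Equation x₁ y₁)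
    (h₂ : (C • W).toAffine.Equation x₂ y₂)
    (hxy : ¬(x₁ = x₂ ∧ y₁ = (C • W).toAffine.negY x₂ y₂)) :
    W.toAffine.slope (vcX C x₁) (vcX C x₂) (vcY C x₁ y₁) (vcY C x₂ y₂) =
      (C.u : F) * (C • W).toAffine.slope x₁ x₂ y₁ y₂ + C.s := by
  have hu := vc_u_ne_zero C
  by_cases hx : x₁ = x₂
  · subst hx
    have hy : y₁ ≠ (C • W).toAffine.negY x₁ y₂ := fun h => hxy ⟨rfl, h⟩
    have hy' : vcY C x₁ y₁ ≠ W.toAffine.negY (vcX C x₁) (vcY C x₁ y₂) := by
      rw [vc_negY]
      exact fun h => hy (vcY_injective C x₁ h)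
    have hyy : y₁ = y₂ := Y_eq_of_Y_ne h₁ h₂ rfl hy
    subst hyy
    rw [slope_of_Y_ne rfl hy, slope_of_Y_ne rfl hy']
    have hd : y₁ - (C • W).toAffine.negY x₁ y₁ ≠ 0 := sub_ne_zero.mpr hy
    have hd' : vcY C x₁ y₁ - W.toAffine.negY (vcX C x₁) (vcY C x₁ y₁) ≠ 0 := sub_ne_zero.mpr hy'
    rw [div_eq_iff hd']
    have e1 : vcY C x₁ y₁ - W.toAffine.negY (vcX C x₁) (vcY C x₁ y₁) =
        (C.u : F) ^ 3 * (y₁ - (C • W).toAffine.negY x₁ y₁) := by
      rw [vc_negY]; simp only [vcY]; ring
    rw [e1]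
    have e2 := vc_polyX W C x₁ y₁
    have e3 : 2 * y₁ + (C • W).a₁ * x₁ + (C • W).a₃ = y₁ - (C • W).toAffine.negY x₁ y₁ := by
      simp only [negY]; ring
    rw [e3] at e2
    field_simp
    linear_combination (-1 : F) * e2
  · have hx' : vcX C x₁ ≠ vcX C x₂ := fun h => hx (vcX_injective C h)
    rw [slope_of_X_ne hx, slope_of_X_ne hx']
    have h1 : x₁ - x₂ ≠ 0 := sub_ne_zero.mpr hx
    have h2 : vcX C x₁ - vcX C x₂ ≠ 0 := sub_ne_zero.mpr hx'
    rw [div_eq_iff h2]
    simp only [vcX, vcY]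
    field_simp
    ring

omit [DecidableEq F] in
lemma vc_addX (x₁ x₂ ℓ : F) :
    W.toAffine.addX (vcX C x₁) (vcX C x₂) ((C.u : F) * ℓ + C.s) =
      vcX C ((C • W).toAffine.addX x₁ x₂ ℓ) := by
  have hu := vc_u_ne_zero C
  simp only [addX, vcX, variableChange_a₁, variableChange_a₂, Units.val_inv_eq_inv_val]
  field_simp
  ring

omit [DecidableEq F] in
lemma vc_negAddY (x₁ x₂ y₁ ℓ : F) :
    W.toAffine.negAddY (vcX C x₁) (vcX C x₂) (vcY C x₁ y₁) ((C.u : F) * ℓ + C.s) =
      vcY C ((C • W).toAffine.addX x₁ x₂ ℓ) ((C • W).toAffine.negAddY x₁ x₂ y₁ ℓ) := by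
  rw [negAddY, vc_addX, negAddY]
  simp only [vcX, vcY]
  ring

omit [DecidableEq F] in
lemma vc_addY (x₁ x₂ y₁ ℓ : F) :
    W.toAffine.addY (vcX C x₁) (vcX C x₂) (vcY C x₁ y₁) ((C.u : F) * ℓ + C.s) =
      vcY C ((C • W).toAffine.addX x₁ x₂ ℓ) ((C • W).toAffine.addY x₁ x₂ y₁ ℓ) := by
  rw [addY, vc_negAddY, vc_addX, vc_negY, addY]

/-- The map on points induced by an admissible change of variables. -/
def vcFun : (C • W).toAffine.Point → W.toAffine.Point
  | .zero => .zero
  | .some x y h => .some (vcX C x) (vcY C x y) ((vc_nonsingular W C x y).mp h)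

omit [DecidableEq F] in
@[simp] lemma vcFun_zero : vcFun W C 0 = 0 := rfl

omit [DecidableEq F] in
lemma vcFun_some {x y : F} (h : (C • W).toAffine.Nonsingular x y) :
    vcFun W C (.some x y h) = .some (vcX C x) (vcY C x y) ((vc_nonsingular W C x y).mp h) := rfl

lemma vcFun_add (P Q : (C • W).toAffine.Point) :
    vcFun W C (P + Q) = vcFun W C P + vcFun W C Q := by
  rcases P with _ | ⟨x₁, y₁, h₁⟩
  · rw [← Point.zero_def, zero_add, vcFun_zero, zero_add]
  rcases Q with _ | ⟨x₂, y₂, h₂⟩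
  · rw [← Point.zero_def, add_zero, vcFun_zero, add_zero]
  by_cases hxy : x₁ = x₂ ∧ y₁ = (C • W).toAffine.negY x₂ y₂
  · rw [Point.add_of_Y_eq hxy.1 hxy.2, vcFun_some, vcFun_some,
      Point.add_of_Y_eq (congrArg _ hxy.1) (by rw [vc_negY, hxy.2, hxy.1])]
    rfl
  · have hxy' : ¬(vcX C x₁ = vcX C x₂ ∧ vcY C x₁ y₁ = W.toAffine.negY (vcX C x₂) (vcY C x₂ y₂)) := by
      rintro ⟨h1, h2⟩
      have hx := vcX_injective C h1
      subst hx
      rw [vc_negY] at h2
      exact hxy ⟨rfl, vcY_injective C x₁ h2⟩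
    rw [Point.add_some hxy, vcFun_some, vcFun_some, vcFun_some, Point.add_some hxy']
    simp only [Point.some.injEq]
    rw [vc_slope W C h₁.1 h₂.1 hxy, vc_addX, vc_addY]
    exact ⟨rfl, rfl⟩

omit [DecidableEq F] in
lemma vcFun_injective : Function.Injective (vcFun W C) := by
  rintro (_ | ⟨x₁, y₁, h₁⟩) (_ | ⟨x₂, y₂, h₂⟩) h
  · rfl
  · simp [vcFun] at h
  · simp [vcFun] at h
  · simp only [vcFun, Point.some.injEq] at h
    obtain ⟨hx, hy⟩ := h
    have hx' := vcX_injective C hx
    subst hx'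
    have hy' := vcY_injective C x₁ hy
    subst hy'
    rfl

omit [DecidableEq F] in
lemma vcFun_surjective : Function.Surjective (vcFun W C) := by
  have hu := vc_u_ne_zero C
  rintro (_ | ⟨X, Y, h⟩)
  · exact ⟨.zero, rfl⟩
  · set x : F := (X - C.r) / (C.u : F) ^ 2 with hx
    set y : F := (Y - (C.u : F) ^ 2 * C.s * x - C.t) / (C.u : F) ^ 3 with hy
    have hX : vcX C x = X := by
      simp only [vcX, hx]; field_simp; ring
    have hY : vcY C x y = Y := by
      simp only [vcY, hy]; field_simp; ring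
    have h' : (C • W).toAffine.Nonsingular x y := by
      rw [vc_nonsingular, hX, hY]; exact h
    refine ⟨.some x y h', ?_⟩
    simp only [vcFun, Point.some.injEq]
    exact ⟨hX, hY⟩

/-- The group isomorphism on points induced by an admissible change of variables. -/
noncomputable def vcHom : (C • W).toAffine.Point →+ W.toAffine.Point where
  toFun := vcFun W C
  map_zero' := rfl
  map_add' := vcFun_add W C

/-- The group isomorphism on points induced by an admissible change of variables. -/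
noncomputable def vcEquiv : (C • W).toAffine.Point ≃+ W.toAffine.Point :=
  AddEquiv.ofBijective (vcHom W C) ⟨vcFun_injective W C, vcFun_surjective W C⟩

lemma vcEquiv_apply (P : (C • W).toAffine.Point) : vcEquiv W C P = vcFun W C P := rfl

end Fermat.Agent.S05
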