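import Mathlib

/-!
# Collinearity ("Vieta") description of addition on `y² = x³ + u x² + w x`
-/

set_option autoImplicit false

namespace Fermat.Agent.S05

open WeierstrassCurve WeierstrassCurve.Affine WeierstrassCurve.Affine.Point Polynomial

variable {K : Type*} [Field K] [DecidableEq K] {W : WeierstrassCurve.Affine K}

omit [DecidableEq K] in
/-- The equation of the special model. -/
theorem equation_special (h1 : W.a₁ = 0) (h3 : W.a₃ = 0) (h6 : W.a₆ = 0) {x y : K}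
    (h : W.Equation x y) : y ^ 2 = x ^ 3 + W.a₂ * x ^ 2 + W.a₄ * x := by
  rw [equation_iff] at h
  rw [h1, h3, h6] at h
  linear_combination h

/-- Addition of two points which are not opposite: the three points `P₁`, `P₂`, `-(P₁+P₂)` lie on a
line `y = ℓ x + ν` and the `x`-coordinates satisfy Vieta's relations. -/
theorem add_vieta (h1 : W.a₁ = 0) (h3 : W.a₃ = 0) (h6 : W.a₆ = 0) {x₁ y₁ x₂ y₂ : K}
    (hP₁ : W.Nonsingular x₁ y₁) (hP₂ : W.Nonsingular x₂ y₂)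
    (hxy : ¬(x₁ = x₂ ∧ y₁ = W.negY x₂ y₂)) :
    ∃ (ℓ ν x₃ y₃ : K) (hP₃ : W.Nonsingular x₃ y₃),
      Point.some x₁ y₁ hP₁ + Point.some x₂ y₂ hP₂ = Point.some x₃ y₃ hP₃ ∧
      y₁ = ℓ * x₁ + ν ∧ y₂ = ℓ * x₂ + ν ∧ -y₃ = ℓ * x₃ + ν ∧
      x₁ + x₂ + x₃ = ℓ ^ 2 - W.a₂ ∧
      x₁ * x₂ + x₁ * x₃ + x₂ * x₃ = W.a₄ - 2 * ℓ * ν ∧
      x₁ * x₂ * x₃ = ν ^ 2 := by
  set ℓ := W.slope x₁ x₂ y₁ y₂ with hℓ
  have hpoly := addPolynomial_slope hP₁.1 hP₂.1 hxy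
  rw [addPolynomial_eq, neg_inj, Cubic.prod_X_sub_C_eq, Cubic.toPoly_injective] at hpoly
  rw [Cubic.ext_iff] at hpoly
  obtain ⟨-, hb, hc, hd⟩ := hpoly
  simp only [h1, h3, h6] at hb hc hd
  have hy₂ : y₂ = ℓ * x₂ + (y₁ - ℓ * x₁) := by
    by_cases hx : x₁ = x₂
    · have hy : y₁ ≠ W.negY x₂ y₂ := fun h => hxy ⟨hx, h⟩
      have := Y_eq_of_Y_ne hP₁.1 hP₂.1 hx hy
      rw [this, hx]; ring
    · rw [hℓ, slope_of_X_ne hx]
      have : x₁ - x₂ ≠ 0 := sub_ne_zero.mpr hx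
      field_simp
      ring
  refine ⟨ℓ, y₁ - ℓ * x₁, W.addX x₁ x₂ ℓ, W.addY x₁ x₂ y₁ ℓ, nonsingular_add hP₁ hP₂ hxy,
    add_some hxy, by ring, hy₂, ?_, ?_, ?_, ?_⟩
  · simp only [addY, negY, negAddY, h1, h3]; ring
  · simp only [addX, h1]; ring
  · linear_combination -hc
  · linear_combination hd
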