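import Fermat.Agent.S05.E1

/-!
# S05, part B: inertia moves points of nonsingular reduction only inside the kernel of reduction.
-/

set_option autoImplicit false

namespace Fermat.Agent.S05

open WeierstrassCurve WeierstrassCurve.Affine

variable {K : Type*} [Field K] [DecidableEq K]
variable {Γ₀ : Type*} [LinearOrderedCommGroupWithZero Γ₀] {v : Valuation K Γ₀}

/-- An endomorphism of `K` that behaves like an element of the inertia group of `v`, together
with its action on the points of `E`. -/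
structure InertiaAct (v : Valuation K Γ₀) (E : WeierstrassCurve.Affine K) (σ : K →+* K)
    (τ : E.Point →+ E.Point) : Prop where
  triv : ∀ a, v a ≤ 1 → v (σ a - a) < 1
  act : ∀ (x y : K) (h : E.Nonsingular x y),
    ∃ h' : E.Nonsingular (σ x) (σ y), τ (Point.some x y h) = Point.some (σ x) (σ y) h'

theorem InertiaAct.val_of_lt {E : WeierstrassCurve.Affine K} {σ : K →+* K} {τ : E.Point →+ E.Point}
    (_hτ : InertiaAct v E σ τ) {a : K} (h : v (σ a - a) < v a) : v (σ a) = v a := by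
  have : σ a = a + (σ a - a) := by ring
  rw [this]
  exact Valuation.map_add_eq_of_lt_left v h

theorem InertiaAct.val_unit {E : WeierstrassCurve.Affine K} {σ : K →+* K} {τ : E.Point →+ E.Point}
    (hτ : InertiaAct v E σ τ) {a : K} (h : v a = 1) : v (σ a) = 1 := by
  rw [← h]
  apply hτ.val_of_lt
  rw [h]
  exact hτ.triv a h.le

theorem InertiaAct.val_gt {E : WeierstrassCurve.Affine K} {σ : K →+* K} {τ : E.Point →+ E.Point}
    (hτ : InertiaAct v E σ τ) {a : K} (h : 1 < v a) : 1 < v (σ a) := by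
  have h1 : v a⁻¹ < 1 := by
    rw [map_inv₀]; exact inv_lt_one_of_one_lt₀ h
  have h2 : v (σ a⁻¹) < 1 := by
    have : σ a⁻¹ = a⁻¹ + (σ a⁻¹ - a⁻¹) := by ring
    rw [this]
    exact Valuation.map_add_lt v h1 (hτ.triv _ h1.le)
  rw [map_inv₀, map_inv₀] at h2
  have ha0 : a ≠ 0 := ne_zero_of_one_lt h
  have h3 : 0 < v (σ a) := (Valuation.pos_iff v).mpr ((map_ne_zero σ).mpr ha0)
  exact (inv_lt_one₀ h3).mp h2

theorem InertiaAct.E1 {E : WeierstrassCurve.Affine K} {σ : K →+* K} {τ : E.Point →+ E.Point}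
    (hτ : InertiaAct v E σ τ) (P : E.Point) (hP : InE1 v P) : InE1 v (τ P) := by
  rcases P with _ | ⟨x, y, h⟩
  · rw [← Point.zero_def, map_zero]; trivial
  · obtain ⟨h', e⟩ := hτ.act x y h
    rw [e]
    show 1 < v (σ x)
    exact hτ.val_gt hP

theorem InertiaAct.act_s {E : WeierstrassCurve.Affine K} {σ : K →+* K} {τ : E.Point →+ E.Point}
    (hτ : InertiaAct v E σ τ) (x s : K) (h : E.Nonsingular x (x * s)) :
    ∃ h' : E.Nonsingular (σ x) (σ x * σ s),
      τ (Point.some x (x * s) h) = Point.some (σ x) (σ x * σ s) h' := by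
  obtain ⟨h', e⟩ := hτ.act x (x * s) h
  rw [e]
  exact exists_some_eq h' rfl (map_mul σ x s)

omit [DecidableEq K] in
theorem IsMC.neg_s {E : WeierstrassCurve.Affine K} (hE : IsMC E) (x s : K)
    (h : E.Nonsingular x (x * s)) :
    ∃ h' : E.Nonsingular x (x * (-s)),
      -(Point.some x (x * s) h) = Point.some x (x * (-s)) h' := by
  rw [Point.neg_some]
  apply exists_some_eq _ rfl
  rw [hE.negY]; ring

/-- Points whose `x`-coordinate is a unit: `τ R - R` lies in the kernel of reduction. -/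
theorem IsMC.sub_mem_E1_of_unit {E : WeierstrassCurve.Affine K} (hE : IsMC E)
    (hU : v E.a₂ ≤ 1) (hW : v E.a₄ ≤ 1) (hdisc : v (E.a₂ ^ 2 - 4 * E.a₄) = 1) (h2 : v (2 : K) = 1)
    {σ : K →+* K} {τ : E.Point →+ E.Point} (hτ : InertiaAct v E σ τ)
    {x y : K} (h : E.Nonsingular x y) (hx : v x = 1) :
    InE1 v (τ (Point.some x y h) - Point.some x y h) := by
  have hx0 : x ≠ 0 := by
    rintro rfl; simp at hx
  obtain ⟨s, h', e'⟩ := exists_s h hx0
  rw [e']
  obtain ⟨h₁, e₁'⟩ := hτ.act_s x s h'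
  obtain ⟨h₂, e₂'⟩ := hE.neg_s x s h'
  rw [sub_eq_add_neg, e₁', e₂']
  have hσx : v (σ x) = 1 := hτ.val_unit hx
  have hσx0 : σ x ≠ 0 := by
    intro h0; rw [h0] at hσx; simp at hσx
  have e₁ := hE.equation_s hσx0 h₁.1
  have e₂ := hE.equation_s hx0 h₂.1
  have e := hE.equation_s hx0 h'.1
  -- s is integral
  have hs : v s ≤ 1 := by
    have : v (x * s ^ 2) ≤ 1 := by
      rw [e]
      refine Valuation.map_add_le v (Valuation.map_add_le v ?_ ?_) hW
      · rw [map_pow, hx]; simp
      · rw [map_mul, hx, mul_one]; exact hU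
    rw [map_mul, hx, one_mul, map_pow] at this
    by_contra hc
    exact absurd (one_lt_pow₀ (not_le.1 hc) two_ne_zero) (not_lt.2 this)
  have hDv : v (σ s + -s) < 1 := by
    rw [← sub_eq_add_neg]; exact hτ.triv s hs
  have hxv : v (σ x - x) < 1 := hτ.triv x hx.le
  have hMle : v (σ x * x - E.a₄) ≤ 1 := by
    refine Valuation.map_sub_le v ?_ hW
    rw [map_mul, hσx, hx, one_mul]
  have hd := alg_diff e₁ e₂
  rcases lt_or_eq_of_le hMle with hM | hM
  · -- `M` is not a unit: then `s` is a unit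
    have h4 : v (4 : K) ≤ 1 := by
      have := v_natCast_le_one v 4
      simpa using this
    have hxW : v (x ^ 2 - E.a₄) < 1 := by
      have : x ^ 2 - E.a₄ = (σ x * x - E.a₄) - x * (σ x - x) := by ring
      rw [this]
      refine Valuation.map_sub_lt v hM ?_
      rw [map_mul, hx, one_mul]; exact hxv
    have hsu : v s = 1 := by
      by_contra hc
      have hs' : v s < 1 := lt_of_le_of_ne hs hc
      have h3 : v (x ^ 2 + E.a₂ * x + E.a₄) < 1 := by
        rw [← e, map_mul, hx, one_mul, map_pow]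
        exact pow_lt_one₀ zero_le hs' two_ne_zero
      have h5 : v (2 * x + E.a₂) < 1 := by
        have : x * (2 * x + E.a₂) = (x ^ 2 + E.a₂ * x + E.a₄) + (x ^ 2 - E.a₄) := by ring
        have h6 : v (x * (2 * x + E.a₂)) < 1 := by
          rw [this]; exact Valuation.map_add_lt v h3 hxW
        rwa [map_mul, hx, one_mul] at h6
      have h7 : v (E.a₂ ^ 2 - 4 * E.a₄) < 1 := by
        have : E.a₂ ^ 2 - 4 * E.a₄ = (2 * x + E.a₂) * (E.a₂ - 2 * x) + 4 * (x ^ 2 - E.a₄) := by ring
        rw [this]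
        refine Valuation.map_add_lt v ?_ ?_
        · rw [map_mul]
          refine mul_lt_one_of_lt_of_le h5 (Valuation.map_sub_le v hU ?_)
          rw [map_mul, h2, hx, one_mul]
        · rw [map_mul]
          exact Right.mul_lt_one_of_le_of_lt h4 hxW
      rw [hdisc] at h7
      exact lt_irrefl _ h7
    have hD' : v (σ s - -s) = 1 := by
      have : σ s - -s = 2 * s + (σ s + -s) := by ring
      rw [this]
      have h8 : v (2 * s) = 1 := by rw [map_mul, h2, hsu, one_mul]
      rw [← h8]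
      exact Valuation.map_add_eq_of_lt_left v (h8 ▸ hDv)
    have hD'0 : σ s - -s ≠ 0 := by
      intro h0; rw [h0] at hD'; simp at hD'
    by_cases hxx : σ x = x
    · have hD0 : σ s + -s = 0 := by
        rw [hxx, sub_self, zero_mul] at hd
        rcases mul_eq_zero.1 hd with h9 | h9
        · exact absurd h9 (mul_ne_zero hx0 hx0)
        · rcases mul_eq_zero.1 h9 with h9 | h9
          · exact absurd h9 hD'0
          · exact h9
      have hy : σ x * σ s = E.negY x (x * -s) := by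
        rw [hE.negY, hxx]; linear_combination x * hD0
      rw [Point.add_of_Y_eq hxx hy]
      trivial
    · obtain ⟨x₃, y₃, h₃, hadd, hx₃⟩ := hE.add_minus_x' hσx0 hx0 hxx h₁ h₂
      rw [hadd]
      show 1 < v x₃
      have hxx0 : 0 < v (σ x - x) := (Valuation.pos_iff v).mpr (sub_ne_zero.2 hxx)
      rw [hx₃, map_div₀, map_mul, map_mul, map_pow, map_pow, hσx, hx, hD', one_mul, one_pow,
        one_mul, one_lt_div₀ (pow_pos hxx0 2)]
      exact pow_lt_one₀ zero_le hxv two_ne_zero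
  · have hM0 : σ x * x - E.a₄ ≠ 0 := by
      intro h0; rw [h0] at hM; simp at hM
    by_cases hD : σ s + -s = 0
    · rw [hD, mul_zero, mul_zero] at hd
      have hxx : σ x = x := by
        rcases mul_eq_zero.1 hd.symm with h9 | h9
        · exact sub_eq_zero.1 h9
        · exact absurd h9 hM0
      have hy : σ x * σ s = E.negY x (x * -s) := by
        rw [hE.negY, hxx]; linear_combination x * hD
      rw [Point.add_of_Y_eq hxx hy]
      trivial
    · obtain ⟨x₃, y₃, h₃, hadd, hx₃⟩ := hE.add_plus_x' hσx0 hx0 hD h₁ h₂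
      rw [hadd]
      show 1 < v x₃
      have hD0 : 0 < v (σ s + -s) := (Valuation.pos_iff v).mpr hD
      rw [hx₃, map_div₀, map_mul, map_mul, map_pow, map_pow, hσx, hx, hM, one_mul, one_pow,
        one_mul, one_lt_div₀ (pow_pos hD0 2)]
      exact pow_lt_one₀ zero_le hDv two_ne_zero

/-- Points not reducing to `(0,0)`. -/
def InE0 (v : Valuation K Γ₀) {E : WeierstrassCurve.Affine K} (P : E.Point) : Prop :=
  match P with
  | .zero => True
  | .some x _ _ => 1 ≤ v x

theorem IsMC.sub_mem_E1_of_E0 {E : WeierstrassCurve.Affine K} (hE : IsMC E)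
    (hU : v E.a₂ ≤ 1) (hW : v E.a₄ ≤ 1) (hdisc : v (E.a₂ ^ 2 - 4 * E.a₄) = 1) (h2 : v (2 : K) = 1)
    {σ : K →+* K} {τ : E.Point →+ E.Point} (hτ : InertiaAct v E σ τ)
    (R : E.Point) (hR : InE0 v R) : InE1 v (τ R - R) := by
  rcases R with _ | ⟨x, y, h⟩
  · rw [← Point.zero_def, map_zero, sub_zero]; trivial
  · have hx : 1 ≤ v x := hR
    rcases lt_or_eq_of_le hx with hx | hx
    · have h1 : InE1 v (Point.some x y h) := hx
      rw [sub_eq_add_neg]
      exact (hE.E1_add hU hW _ _ (hτ.E1 _ h1) (InE1_neg _ h1)).1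
    · exact hE.sub_mem_E1_of_unit hU hW hdisc h2 hτ h hx.symm

theorem InertiaAct.T_fixed {E : WeierstrassCurve.Affine K} {σ : K →+* K} {τ : E.Point →+ E.Point}
    (hτ : InertiaAct v E σ τ) (hT : E.Nonsingular 0 0) :
    τ (Point.some 0 0 hT) = Point.some 0 0 hT := by
  obtain ⟨h', e⟩ := hτ.act 0 0 hT
  rw [e]
  simp only [map_zero]

theorem IsMC.sub_mem_E1_of_E0_T {E : WeierstrassCurve.Affine K} (hE : IsMC E)
    (hU : v E.a₂ ≤ 1) (hW : v E.a₄ ≤ 1) (hdisc : v (E.a₂ ^ 2 - 4 * E.a₄) = 1) (h2 : v (2 : K) = 1)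
    {σ : K →+* K} {τ : E.Point →+ E.Point} (hτ : InertiaAct v E σ τ) (hT : E.Nonsingular 0 0)
    (R : E.Point) (j : ℕ) (hR : InE0 v (R + j • Point.some 0 0 hT)) : InE1 v (τ R - R) := by
  have := hE.sub_mem_E1_of_E0 hU hW hdisc h2 hτ _ hR
  rw [map_add, map_nsmul, hτ.T_fixed hT] at this
  convert this using 1
  abel

theorem IsMC.fixed_of_sub_mem_E1 {E : WeierstrassCurve.Affine K} (hE : IsMC E)
    (hU : v E.a₂ ≤ 1) (hW : v E.a₄ ≤ 1) {τ : E.Point →+ E.Point} (P : E.Point) (p : ℕ)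
    (hp : v (p : K) = 1) (hpP : p • P = 0) (h : InE1 v (τ P - P)) : τ P = P := by
  have : τ P - P = 0 := by
    apply hE.E1_torsion_free hU hW _ h p hp
    rw [smul_sub, ← map_nsmul, hpP, map_zero, sub_zero]
  exact sub_eq_zero.1 this

omit [DecidableEq K] in
theorem IsMC.nonsingular_T {E : WeierstrassCurve.Affine K} (hE : IsMC E) (hW : E.a₄ ≠ 0) :
    E.Nonsingular 0 0 := by
  rw [nonsingular_zero]
  exact ⟨hE.a₆, Or.inr hW⟩

theorem IsMC.T_add_T {E : WeierstrassCurve.Affine K} (hE : IsMC E) (hT : E.Nonsingular 0 0) :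
    Point.some 0 0 hT + Point.some 0 0 hT = 0 := by
  apply Point.add_of_Y_eq rfl
  rw [hE.negY]; simp

theorem IsMC.nsmul_T {E : WeierstrassCurve.Affine K} (hE : IsMC E) (hT : E.Nonsingular 0 0)
    (j : ℕ) : j • Point.some 0 0 hT = 0 ∨ j • Point.some 0 0 hT = Point.some 0 0 hT := by
  induction j with
  | zero => left; simp
  | succ j ih =>
    rw [succ_nsmul]
    rcases ih with h | h
    · right; rw [h, zero_add]
    · left; rw [h, hE.T_add_T]

omit [DecidableEq K] in
theorem IsMC.eq_T_of_x_zero {E : WeierstrassCurve.Affine K} (hE : IsMC E) {y : K}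
    (h : E.Nonsingular 0 y) : y = 0 := by
  have := (hE.equation_iff 0 y).1 h.1
  simpa using this

theorem IsMC.E0_add_T_of_le {E : WeierstrassCurve.Affine K} (hE : IsMC E)
    (hT : E.Nonsingular 0 0) {x y : K} (h : E.Nonsingular x y) (hx : v x ≤ v E.a₄) :
    InE0 v (Point.some x y h + Point.some 0 0 hT) := by
  by_cases hx0 : x = 0
  · subst hx0
    obtain rfl := hE.eq_T_of_x_zero h
    rw [hE.T_add_T]; trivial
  · obtain ⟨s, h', e'⟩ := exists_s h hx0
    obtain ⟨x₃, s₃, h₃, hadd, hx₃, -⟩ := hE.add_T' hx0 hT h'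
    rw [e', hadd]
    show 1 ≤ v x₃
    rw [hx₃, map_div₀]
    exact (one_le_div₀ ((Valuation.pos_iff v).mpr hx0)).mpr hx

/-- Good reduction: inertia acts trivially on torsion of order prime to the residue
characteristic. -/
theorem IsMC.good_fixed {E : WeierstrassCurve.Affine K} (hE : IsMC E)
    (hU : v E.a₂ ≤ 1) (hW : v E.a₄ = 1) (hdisc : v (E.a₂ ^ 2 - 4 * E.a₄) = 1) (h2 : v (2 : K) = 1)
    {σ : K →+* K} {τ : E.Point →+ E.Point} (hτ : InertiaAct v E σ τ)
    (P : E.Point) (p : ℕ) (hp : v (p : K) = 1) (hpP : p • P = 0) : τ P = P := by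
  have hW0 : E.a₄ ≠ 0 := by
    intro h0; rw [h0] at hW; simp at hW
  have hT := hE.nonsingular_T hW0
  apply hE.fixed_of_sub_mem_E1 hU hW.le P p hp hpP
  by_cases hP : InE0 v P
  · exact hE.sub_mem_E1_of_E0 hU hW.le hdisc h2 hτ P hP
  · apply hE.sub_mem_E1_of_E0_T hU hW.le hdisc h2 hτ hT P 1
    rw [one_nsmul]
    rcases P with _ | ⟨x, y, h⟩
    · exact absurd trivial hP
    · apply hE.E0_add_T_of_le
      rw [hW]
      exact (not_le.1 hP).le

end Fermat.Agent.S05
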