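import Fermat.Agent.S05.Alg

/-!
# S05, part 1: explicit addition on the model curve, at the level of Mathlib points.
-/

set_option autoImplicit false

namespace Fermat.Agent.S05

open WeierstrassCurve WeierstrassCurve.Affine

variable {K : Type*} [Field K] [DecidableEq K]

theorem IsMC.slope_plus {E : WeierstrassCurve.Affine K} (hE : IsMC E) {x₁ x₂ s₁ s₂ : K}
    (hx₁ : x₁ ≠ 0) (hx₂ : x₂ ≠ 0) (hD : s₁ + s₂ ≠ 0)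
    (e₁ : x₁ * s₁ ^ 2 = x₁ ^ 2 + E.a₂ * x₁ + E.a₄) (e₂ : x₂ * s₂ ^ 2 = x₂ ^ 2 + E.a₂ * x₂ + E.a₄) :
    E.slope x₁ x₂ (x₁ * s₁) (x₂ * s₂) = s₁ + (x₁ * x₂ - E.a₄) / (x₁ * (s₁ + s₂)) := by
  by_cases hx : x₁ = x₂
  · subst hx
    have hs : s₁ = s₂ := by
      have h : x₁ * ((s₁ - s₂) * (s₁ + s₂)) = 0 := by linear_combination e₁ - e₂
      rcases mul_eq_zero.1 h with h | h
      · exact absurd h hx₁
      · rcases mul_eq_zero.1 h with h | h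
        · exact sub_eq_zero.1 h
        · exact absurd h hD
    subst hs
    have h22 : (2 : K) * s₁ ≠ 0 := by
      intro h; apply hD; linear_combination h
    have h2 : (2 : K) ≠ 0 := left_ne_zero_of_mul h22
    have hs : s₁ ≠ 0 := right_ne_zero_of_mul h22
    have h2 : x₁ * s₁ ≠ E.negY x₁ (x₁ * s₁) := by
      rw [hE.negY]
      intro h
      apply hD
      apply mul_left_cancel₀ hx₁
      linear_combination h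
    rw [slope_of_Y_ne rfl h2, hE.negY, hE.a₁]
    have e3 : x₁ * s₁ - -(x₁ * s₁) = 2 * x₁ * s₁ := by ring
    have e4 : s₁ + s₁ = 2 * s₁ := by ring
    rw [e3, e4]
    field_simp
    linear_combination (-2 : K) * e₁
  · rw [slope_of_X_ne hx]
    have hx' : x₁ - x₂ ≠ 0 := sub_ne_zero.2 hx
    field_simp
    grind

omit [DecidableEq K] in
theorem IsMC.not_neg_of_D {E : WeierstrassCurve.Affine K} (hE : IsMC E) {x₁ x₂ s₁ s₂ : K}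
    (hx₁ : x₁ ≠ 0) (hD : s₁ + s₂ ≠ 0) :
    ¬(x₁ = x₂ ∧ x₁ * s₁ = E.negY x₂ (x₂ * s₂)) := by
  rintro ⟨rfl, h⟩
  rw [hE.negY] at h
  apply hD
  apply mul_left_cancel₀ hx₁
  linear_combination h

theorem IsMC.add_plus_x {E : WeierstrassCurve.Affine K} (hE : IsMC E) {x₁ x₂ s₁ s₂ : K}
    (hx₁ : x₁ ≠ 0) (hx₂ : x₂ ≠ 0) (hD : s₁ + s₂ ≠ 0)
    (h₁ : E.Nonsingular x₁ (x₁ * s₁)) (h₂ : E.Nonsingular x₂ (x₂ * s₂)) :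
    ∃ (y₃ : K) (h₃ : E.Nonsingular ((x₁ * x₂ - E.a₄) ^ 2 / (x₁ * x₂ * (s₁ + s₂) ^ 2)) y₃),
      Point.some _ _ h₁ + Point.some _ _ h₂ = Point.some _ _ h₃ := by
  have e₁ := hE.equation_s hx₁ h₁.1
  have e₂ := hE.equation_s hx₂ h₂.1
  rw [Point.add_some (hE.not_neg_of_D hx₁ hD)]
  apply exists_some_eq_x
  rw [hE.slope_plus hx₁ hx₂ hD e₁ e₂, addX, hE.a₁, ← alg_I2 hx₁ hx₂ hD e₁ e₂]
  ring

theorem IsMC.add_plus {E : WeierstrassCurve.Affine K} (hE : IsMC E) {x₁ x₂ s₁ s₂ : K}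
    (hx₁ : x₁ ≠ 0) (hx₂ : x₂ ≠ 0) (hD : s₁ + s₂ ≠ 0) (hM : x₁ * x₂ - E.a₄ ≠ 0)
    (h₁ : E.Nonsingular x₁ (x₁ * s₁)) (h₂ : E.Nonsingular x₂ (x₂ * s₂)) :
    ∃ (h₃ : E.Nonsingular ((x₁ * x₂ - E.a₄) ^ 2 / (x₁ * x₂ * (s₁ + s₂) ^ 2))
        ((x₁ * x₂ - E.a₄) ^ 2 / (x₁ * x₂ * (s₁ + s₂) ^ 2) *
        (-s₁ - (x₁ * x₂ - E.a₄) / (x₁ * (s₁ + s₂)) + x₁ * x₂ * (s₁ + s₂) / (x₁ * x₂ - E.a₄)))),
      Point.some _ _ h₁ + Point.some _ _ h₂ = Point.some _ _ h₃ := by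
  have e₁ := hE.equation_s hx₁ h₁.1
  have e₂ := hE.equation_s hx₂ h₂.1
  rw [Point.add_some (hE.not_neg_of_D hx₁ hD)]
  have hX : E.addX x₁ x₂ (E.slope x₁ x₂ (x₁ * s₁) (x₂ * s₂)) =
      (x₁ * x₂ - E.a₄) ^ 2 / (x₁ * x₂ * (s₁ + s₂) ^ 2) := by
    rw [hE.slope_plus hx₁ hx₂ hD e₁ e₂, addX, hE.a₁, ← alg_I2 hx₁ hx₂ hD e₁ e₂]
    ring
  apply exists_some_eq _ hX
  rw [addY, negAddY, hX, hE.negY, hE.slope_plus hx₁ hx₂ hD e₁ e₂]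
  exact alg_I3 hx₁ hx₂ hD hM

theorem IsMC.add_minus_x {E : WeierstrassCurve.Affine K} (hE : IsMC E) {x₁ x₂ s₁ s₂ : K}
    (hx₁ : x₁ ≠ 0) (hx₂ : x₂ ≠ 0) (hx : x₁ ≠ x₂)
    (h₁ : E.Nonsingular x₁ (x₁ * s₁)) (h₂ : E.Nonsingular x₂ (x₂ * s₂)) :
    ∃ (y₃ : K) (h₃ : E.Nonsingular (x₁ * x₂ * (s₁ - s₂) ^ 2 / (x₁ - x₂) ^ 2) y₃),
      Point.some _ _ h₁ + Point.some _ _ h₂ = Point.some _ _ h₃ := by
  have e₁ := hE.equation_s hx₁ h₁.1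
  have e₂ := hE.equation_s hx₂ h₂.1
  rw [Point.add_of_X_ne hx]
  apply exists_some_eq_x
  rw [slope_of_X_ne hx, addX, hE.a₁, ← alg_I5 (sub_ne_zero.2 hx) e₁ e₂]
  ring

theorem IsMC.add_T {E : WeierstrassCurve.Affine K} (hE : IsMC E) {x s : K}
    (hx : x ≠ 0) (hT : E.Nonsingular 0 0) (h : E.Nonsingular x (x * s)) :
    ∃ (h₃ : E.Nonsingular (E.a₄ / x) (E.a₄ / x * (-s))),
      Point.some _ _ h + Point.some _ _ hT = Point.some _ _ h₃ := by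
  have e := hE.equation_s hx h.1
  rw [Point.add_of_X_ne hx]
  have hsl : E.slope x 0 (x * s) 0 = s := by
    rw [slope_of_X_ne hx, sub_zero, sub_zero, mul_div_cancel_left₀ _ hx]
  have hX : E.addX x 0 (E.slope x 0 (x * s) 0) = E.a₄ / x := by
    rw [hsl, addX, hE.a₁, eq_div_iff hx]
    linear_combination e
  apply exists_some_eq _ hX
  rw [addY, negAddY, hX, hE.negY, hsl]
  ring

/-! ### the same statements with opaque coordinates -/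

theorem IsMC.add_plus_x' {E : WeierstrassCurve.Affine K} (hE : IsMC E) {x₁ x₂ s₁ s₂ : K}
    (hx₁ : x₁ ≠ 0) (hx₂ : x₂ ≠ 0) (hD : s₁ + s₂ ≠ 0)
    (h₁ : E.Nonsingular x₁ (x₁ * s₁)) (h₂ : E.Nonsingular x₂ (x₂ * s₂)) :
    ∃ (x₃ y₃ : K) (h₃ : E.Nonsingular x₃ y₃),
      Point.some _ _ h₁ + Point.some _ _ h₂ = Point.some _ _ h₃ ∧
      x₃ = (x₁ * x₂ - E.a₄) ^ 2 / (x₁ * x₂ * (s₁ + s₂) ^ 2) := by
  obtain ⟨y₃, h₃, h⟩ := hE.add_plus_x hx₁ hx₂ hD h₁ h₂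
  exact ⟨_, _, h₃, h, rfl⟩

theorem IsMC.add_plus' {E : WeierstrassCurve.Affine K} (hE : IsMC E) {x₁ x₂ s₁ s₂ : K}
    (hx₁ : x₁ ≠ 0) (hx₂ : x₂ ≠ 0) (hD : s₁ + s₂ ≠ 0) (hM : x₁ * x₂ - E.a₄ ≠ 0)
    (h₁ : E.Nonsingular x₁ (x₁ * s₁)) (h₂ : E.Nonsingular x₂ (x₂ * s₂)) :
    ∃ (x₃ s₃ : K) (h₃ : E.Nonsingular x₃ (x₃ * s₃)),
      Point.some _ _ h₁ + Point.some _ _ h₂ = Point.some _ _ h₃ ∧
      x₃ = (x₁ * x₂ - E.a₄) ^ 2 / (x₁ * x₂ * (s₁ + s₂) ^ 2) ∧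
      s₃ = -s₁ - (x₁ * x₂ - E.a₄) / (x₁ * (s₁ + s₂)) + x₁ * x₂ * (s₁ + s₂) / (x₁ * x₂ - E.a₄) := by
  obtain ⟨h₃, h⟩ := hE.add_plus hx₁ hx₂ hD hM h₁ h₂
  exact ⟨_, _, h₃, h, rfl, rfl⟩

theorem IsMC.add_minus_x' {E : WeierstrassCurve.Affine K} (hE : IsMC E) {x₁ x₂ s₁ s₂ : K}
    (hx₁ : x₁ ≠ 0) (hx₂ : x₂ ≠ 0) (hx : x₁ ≠ x₂)
    (h₁ : E.Nonsingular x₁ (x₁ * s₁)) (h₂ : E.Nonsingular x₂ (x₂ * s₂)) :
    ∃ (x₃ y₃ : K) (h₃ : E.Nonsingular x₃ y₃),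
      Point.some _ _ h₁ + Point.some _ _ h₂ = Point.some _ _ h₃ ∧
      x₃ = x₁ * x₂ * (s₁ - s₂) ^ 2 / (x₁ - x₂) ^ 2 := by
  obtain ⟨y₃, h₃, h⟩ := hE.add_minus_x hx₁ hx₂ hx h₁ h₂
  exact ⟨_, _, h₃, h, rfl⟩

theorem IsMC.add_T' {E : WeierstrassCurve.Affine K} (hE : IsMC E) {x s : K}
    (hx : x ≠ 0) (hT : E.Nonsingular 0 0) (h : E.Nonsingular x (x * s)) :
    ∃ (x₃ s₃ : K) (h₃ : E.Nonsingular x₃ (x₃ * s₃)),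
      Point.some _ _ h + Point.some _ _ hT = Point.some _ _ h₃ ∧ x₃ = E.a₄ / x ∧ s₃ = -s := by
  obtain ⟨h₃, h⟩ := hE.add_T hx hT h
  exact ⟨_, _, h₃, h, rfl, rfl⟩

end Fermat.Agent.S05
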