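import Mathlib

/-!
# S05, part 0: the model curve `y² = x³ + U x² + W x` and explicit addition formulas
in the coordinates `(x, s)` with `y = x * s`.
-/

set_option autoImplicit false

namespace Fermat.Agent.S05

open WeierstrassCurve WeierstrassCurve.Affine

variable {K : Type*} [Field K]

/-- The Weierstrass curve is of the shape `y² = x³ + a₂ x² + a₄ x`. -/
structure IsMC (E : WeierstrassCurve.Affine K) : Prop where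
  a₁ : E.a₁ = 0
  a₃ : E.a₃ = 0
  a₆ : E.a₆ = 0

theorem IsMC.equation_iff {E : WeierstrassCurve.Affine K} (hE : IsMC E) (x y : K) :
    E.Equation x y ↔ y ^ 2 = x ^ 3 + E.a₂ * x ^ 2 + E.a₄ * x := by
  rw [WeierstrassCurve.Affine.equation_iff, hE.a₁, hE.a₃, hE.a₆]
  constructor <;> intro h <;> linear_combination h

theorem IsMC.equation_s {E : WeierstrassCurve.Affine K} (hE : IsMC E) {x s : K} (hx : x ≠ 0)
    (h : E.Equation x (x * s)) : x * s ^ 2 = x ^ 2 + E.a₂ * x + E.a₄ := by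
  rw [hE.equation_iff] at h
  apply mul_left_cancel₀ hx
  linear_combination h

theorem IsMC.negY {E : WeierstrassCurve.Affine K} (hE : IsMC E) (x y : K) :
    E.negY x y = -y := by
  simp [WeierstrassCurve.Affine.negY, hE.a₁, hE.a₃]

theorem exists_some_eq {E : WeierstrassCurve.Affine K} {x y x' y' : K} (h : E.Nonsingular x y)
    (hx : x = x') (hy : y = y') :
    ∃ h' : E.Nonsingular x' y', Point.some x y h = Point.some x' y' h' := by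
  subst hx hy
  exact ⟨h, rfl⟩

theorem exists_some_eq_x {E : WeierstrassCurve.Affine K} {x y x' : K} (h : E.Nonsingular x y)
    (hx : x = x') :
    ∃ (y' : K) (h' : E.Nonsingular x' y'), Point.some x y h = Point.some x' y' h' := by
  subst hx
  exact ⟨y, h, rfl⟩

/-! ### pure field identities -/

theorem alg_I2 {U W x₁ x₂ s₁ s₂ : K} (hx₁ : x₁ ≠ 0) (hx₂ : x₂ ≠ 0) (hD : s₁ + s₂ ≠ 0)
    (e₁ : x₁ * s₁ ^ 2 = x₁ ^ 2 + U * x₁ + W) (e₂ : x₂ * s₂ ^ 2 = x₂ ^ 2 + U * x₂ + W) :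
    (s₁ + (x₁ * x₂ - W) / (x₁ * (s₁ + s₂))) ^ 2 - U - x₁ - x₂
      = (x₁ * x₂ - W) ^ 2 / (x₁ * x₂ * (s₁ + s₂) ^ 2) := by
  field_simp
  grind

/-- the `y`-coordinate of the sum, `M ≠ 0`. -/
theorem alg_I3 {W x₁ x₂ s₁ s₂ : K} (hx₁ : x₁ ≠ 0) (hx₂ : x₂ ≠ 0) (hD : s₁ + s₂ ≠ 0)
    (hM : x₁ * x₂ - W ≠ 0) :
    -((s₁ + (x₁ * x₂ - W) / (x₁ * (s₁ + s₂))) *
        ((x₁ * x₂ - W) ^ 2 / (x₁ * x₂ * (s₁ + s₂) ^ 2) - x₁) + x₁ * s₁)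
      = (x₁ * x₂ - W) ^ 2 / (x₁ * x₂ * (s₁ + s₂) ^ 2) *
        (-s₁ - (x₁ * x₂ - W) / (x₁ * (s₁ + s₂)) + x₁ * x₂ * (s₁ + s₂) / (x₁ * x₂ - W)) := by
  field_simp
  ring

theorem alg_I4 {U W x₁ x₂ s₁ s₂ : K} (hx₁ : x₁ ≠ 0) (hx₂ : x₂ ≠ 0) (hD : s₁ + s₂ ≠ 0)
    (hM : x₁ * x₂ - W ≠ 0)
    (e₂ : x₂ * s₂ ^ 2 = x₂ ^ 2 + U * x₂ + W) :
    (s₁ + s₂) * (-s₁ - (x₁ * x₂ - W) / (x₁ * (s₁ + s₂)) + x₁ * x₂ * (s₁ + s₂) / (x₁ * x₂ - W))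
      = s₁ * s₂ + U + W / x₁ + W / x₂ + (s₁ + s₂) ^ 2 * W / (x₁ * x₂ - W) := by
  field_simp
  grind

theorem alg_I5 {U W x₁ x₂ s₁ s₂ : K} (hx : x₁ - x₂ ≠ 0)
    (e₁ : x₁ * s₁ ^ 2 = x₁ ^ 2 + U * x₁ + W) (e₂ : x₂ * s₂ ^ 2 = x₂ ^ 2 + U * x₂ + W) :
    ((x₁ * s₁ - x₂ * s₂) / (x₁ - x₂)) ^ 2 - U - x₁ - x₂
      = x₁ * x₂ * (s₁ - s₂) ^ 2 / (x₁ - x₂) ^ 2 := by
  field_simp
  grind

/-- difference of the two curve equations -/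
theorem alg_diff {U W x₁ x₂ s₁ s₂ : K}
    (e₁ : x₁ * s₁ ^ 2 = x₁ ^ 2 + U * x₁ + W) (e₂ : x₂ * s₂ ^ 2 = x₂ ^ 2 + U * x₂ + W) :
    x₁ * x₂ * ((s₁ - s₂) * (s₁ + s₂)) = (x₁ - x₂) * (x₁ * x₂ - W) := by
  linear_combination x₂ * e₁ - x₁ * e₂

end Fermat.Agent.S05
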