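import Fermat.Agent.S05.Formulas

/-!
# Component bookkeeping for `y² = x³ + u x² + w x` with `v u = 1`, `v w < 1`
-/

set_option autoImplicit false

namespace Fermat.Agent.S05

open WeierstrassCurve WeierstrassCurve.Affine

variable {K : Type*} [Field K] [DecidableEq K] {W : WeierstrassCurve.Affine K}
variable {Γ₀ : Type*} [LinearOrderedCommGroupWithZero Γ₀] (v : Valuation K Γ₀)

/-- identity component (among integral points): `O` or `v x = 1`. -/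
def ZZ (P : W.Point) : Prop := P = 0 ∨ ∃ x y h, P = Point.some x y h ∧ v x = 1

/-- the component of `T = (0,0)`. -/
def TT (P : W.Point) : Prop := ∃ x y h, P = Point.some x y h ∧ v x ≤ v W.a₄

/-- points reducing to the node, with tangent direction `α`, and `v x = γ`. -/
def PP (α : K) (γ : Γ₀) (P : W.Point) : Prop :=
  ∃ x y h, P = Point.some x y h ∧ v W.a₄ < γ ∧ γ < 1 ∧ v x = γ ∧ v (y - α * x) < v x

variable {v}

section basic

variable (hW : IsModel W)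
include hW

lemma ZZ.neg {P : W.Point} (h : ZZ v P) : ZZ v (-P) := by
  rcases h with rfl | ⟨x, y, h, rfl, hx⟩
  · left; simp
  · right
    obtain ⟨h', e⟩ := hW.neg_some h
    exact ⟨x, -y, h', e, hx⟩

lemma TT.neg {P : W.Point} (h : TT v P) : TT v (-P) := by
  obtain ⟨x, y, h, rfl, hx⟩ := h
  obtain ⟨h', e⟩ := hW.neg_some h
  exact ⟨x, -y, h', e, hx⟩

lemma PP.neg {α : K} {γ : Γ₀} {P : W.Point} (h : PP v α γ P) : PP v (-α) γ (-P) := by
  obtain ⟨x, y, h, rfl, h1, h2, hx, hy⟩ := h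
  obtain ⟨h', e⟩ := hW.neg_some h
  refine ⟨x, -y, h', e, h1, h2, hx, ?_⟩
  have : -y - -α * x = -(y - α * x) := by ring
  rw [this, Valuation.map_neg]
  exact hy

end basic

section vlemmas

omit [DecidableEq K] in
lemma v_lt_mul_of_lt_of_le {a b : K} {g h : Γ₀} (ha : v a < g) (hb : v b ≤ h) (hh : h ≠ 0) :
    v (a * b) < g * h := by
  rw [map_mul]
  calc v a * v b ≤ v a * h := by gcongr
    _ < g * h := by
      have : 0 < h := zero_lt_iff.2 hh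
      gcongr

end vlemmas

section add

variable (hW : IsModel W) {α : K} (hα : α ^ 2 = W.a₂) (hvα : v α = 1) (h2 : v (2 : K) = 1)

omit [DecidableEq K] in
lemma PP.ne_zero {α : K} {γ : Γ₀} {P : W.Point} (h : PP v α γ P) : γ ≠ 0 := by
  obtain ⟨x, y, h, rfl, h1, h2, hx, hy⟩ := h
  exact (lt_of_le_of_lt zero_le h1).ne'

include hW hvα h2 in
/-- opposite directions, `v x₂ < v x₁`. -/
lemma PP.add_lt {g₁ g₂ : Γ₀} {P₁ P₂ : W.Point} (h₁ : PP v (-α) g₁ P₁) (h₂ : PP v α g₂ P₂)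
    (hlt : g₂ < g₁) : PP v α (g₂ / g₁) (P₁ + P₂) := by
  have hg₁ := h₁.ne_zero
  have hg₂ := h₂.ne_zero
  obtain ⟨x₁, y₁, n₁, rfl, a₁, b₁, hx₁, hy₁⟩ := h₁
  obtain ⟨x₂, y₂, n₂, rfl, a₂, b₂, hx₂, hy₂⟩ := h₂
  have hx : x₁ ≠ x₂ := by
    rintro rfl
    rw [hx₁] at hx₂
    exact hlt.ne' hx₂
  obtain ⟨x₃, y₃, n₃, hadd, hX, hY⟩ := hW.add_of_X_ne n₁ n₂ hx
  have hd : v (x₁ - x₂) = g₁ := by
    rw [Valuation.map_sub_eq_of_lt_left, hx₁]
    rw [hx₁, hx₂]; exact hlt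
  have hN : v (y₁ * x₂ - y₂ * x₁) = g₁ * g₂ := by
    have e : y₁ * x₂ - y₂ * x₁
        = -(2 * α * x₁ * x₂) + ((y₁ - -α * x₁) * x₂ - (y₂ - α * x₂) * x₁) := by ring
    have e1 : v (-(2 * α * x₁ * x₂)) = g₁ * g₂ := by
      rw [Valuation.map_neg]; simp [h2, hvα, hx₁, hx₂]
    rw [e, Valuation.map_add_eq_of_lt_left, e1]
    rw [e1]
    apply Valuation.map_sub_lt
    · rw [hx₁] at hy₁
      exact v_lt_mul_of_lt_of_le hy₁ hx₂.le hg₂
    · rw [hx₂] at hy₂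
      rw [mul_comm g₁ g₂]
      exact v_lt_mul_of_lt_of_le hy₂ hx₁.le hg₁
  have hx₃ : v x₃ = g₂ / g₁ := by
    have := congrArg v hX
    simp only [map_mul, map_pow, hx₁, hx₂, hd, hN] at this
    field_simp at this ⊢
    exact this
  refine ⟨x₃, y₃, n₃, hadd, ?_, ?_, hx₃, ?_⟩
  · calc v W.a₄ < g₂ := a₂
      _ ≤ g₂ / g₁ := by
        rw [le_div_iff₀ (zero_lt_iff.2 hg₁)]
        exact mul_le_of_le_one_right zero_le b₁.le
  · rw [div_lt_one₀ (zero_lt_iff.2 hg₁)]; exact hlt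
  · -- sign
    have e : (y₃ - α * x₃) * (x₁ - x₂)
        = -(x₃ * ((y₁ - -α * x₁) - (y₂ - α * x₂) - 2 * α * x₂)) + (y₁ * x₂ - y₂ * x₁) := by
      linear_combination hY
    have hb : v ((y₁ - -α * x₁) - (y₂ - α * x₂) - 2 * α * x₂) < g₁ := by
      apply Valuation.map_sub_lt
      · apply Valuation.map_sub_lt
        · rwa [hx₁] at hy₁
        · rw [hx₂] at hy₂; exact hy₂.trans hlt
      · simp [h2, hvα, hx₂, hlt]
    have hx₃0 : v x₃ ≠ 0 := by rw [hx₃]; exact div_ne_zero hg₂ hg₁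
    have key : v ((y₃ - α * x₃) * (x₁ - x₂)) < v x₃ * g₁ := by
      rw [e]
      apply Valuation.map_add_lt
      · rw [Valuation.map_neg, mul_comm x₃, mul_comm (v x₃)]
        exact v_lt_mul_of_lt_of_le hb le_rfl hx₃0
      · rw [hN, hx₃]
        have : g₂ / g₁ * g₁ = g₂ := by field_simp
        rw [this]
        exact mul_lt_of_lt_one_left (zero_lt_iff.2 hg₂) b₁
    rw [map_mul, hd] at key
    exact lt_of_mul_lt_mul_right' key

include hW hvα h2 in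
/-- opposite directions, `v x₂ = v x₁`. -/
lemma PP.add_eq {g : Γ₀} {P₁ P₂ : W.Point} (h₁ : PP v (-α) g P₁) (h₂ : PP v α g P₂)
    (hint : ∀ x y h, P₁ + P₂ = Point.some x y h → v x ≤ 1) : ZZ v (P₁ + P₂) := by
  have hg := h₁.ne_zero
  obtain ⟨x₁, y₁, n₁, rfl, a₁, b₁, hx₁, hy₁⟩ := h₁
  obtain ⟨x₂, y₂, n₂, rfl, a₂, b₂, hx₂, hy₂⟩ := h₂
  have hN : v (y₁ * x₂ - y₂ * x₁) = g * g := by
    have e : y₁ * x₂ - y₂ * x₁
        = -(2 * α * x₁ * x₂) + ((y₁ - -α * x₁) * x₂ - (y₂ - α * x₂) * x₁) := by ring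
    have e1 : v (-(2 * α * x₁ * x₂)) = g * g := by
      rw [Valuation.map_neg]; simp [h2, hvα, hx₁, hx₂]
    rw [e, Valuation.map_add_eq_of_lt_left, e1]
    rw [e1]
    apply Valuation.map_sub_lt
    · rw [hx₁] at hy₁
      exact v_lt_mul_of_lt_of_le hy₁ hx₂.le hg
    · rw [hx₂] at hy₂
      exact v_lt_mul_of_lt_of_le hy₂ hx₁.le hg
  by_cases hx : x₁ = x₂
  · subst hx
    left
    apply Point.add_of_Y_eq rfl
    rw [hW.negY]
    have e₁ := hW.eqn n₁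
    have e₂ := hW.eqn n₂
    have : (y₁ - y₂) * (y₁ + y₂) = 0 := by linear_combination e₁ - e₂
    rcases mul_eq_zero.1 this with h | h
    · exfalso
      have h' : y₁ = y₂ := sub_eq_zero.1 h
      subst h'
      have : y₁ * x₁ - y₁ * x₁ = 0 := sub_self _
      rw [this, map_zero] at hN
      exact mul_ne_zero hg hg hN.symm
    · exact eq_neg_of_add_eq_zero_left h
  · obtain ⟨x₃, y₃, n₃, hadd, hX, hY⟩ := hW.add_of_X_ne n₁ n₂ hx
    right
    refine ⟨x₃, y₃, n₃, hadd, le_antisymm (hint _ _ _ hadd) ?_⟩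
    have hd : v (x₁ - x₂) ≤ g := Valuation.map_sub_le v hx₁.le hx₂.le
    have hd0 : v (x₁ - x₂) ≠ 0 := (Valuation.ne_zero_iff v).2 (sub_ne_zero.2 hx)
    have := congrArg v hX
    simp only [map_mul, map_pow, hx₁, hx₂, hN] at this
    by_contra hlt
    rw [not_le] at hlt
    have h3 : v x₃ * (g * g * v (x₁ - x₂) ^ 2) < (g * g) ^ 2 := by
      calc v x₃ * (g * g * v (x₁ - x₂) ^ 2) ≤ v x₃ * (g * g * g ^ 2) := by gcongr
        _ < 1 * (g * g * g ^ 2) := by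
          have : 0 < g * g * g ^ 2 :=
            zero_lt_iff.2 (mul_ne_zero (mul_ne_zero hg hg) (pow_ne_zero 2 hg))
          gcongr
        _ = (g * g) ^ 2 := by rw [one_mul, pow_two, pow_two]
    exact h3.ne this

include hW in
lemma v_y_le_one (hu : v W.a₂ ≤ 1) (hw : v W.a₄ ≤ 1) {x y : K} (n : W.Nonsingular x y)
    (hx : v x ≤ 1) : v y ≤ 1 := by
  have e := hW.eqn n
  have : v (y ^ 2) ≤ 1 := by
    rw [e]
    apply Valuation.map_add_le
    · apply Valuation.map_add_le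
      · rw [map_pow]; exact pow_le_one₀ zero_le hx
      · rw [map_mul, map_pow]; exact mul_le_one₀ hu zero_le (pow_le_one₀ zero_le hx)
    · rw [map_mul]; exact mul_le_one₀ hw zero_le hx
  rw [map_pow] at this
  exact (pow_le_one_iff_of_nonneg zero_le two_ne_zero).1 this

include hW in
/-- identity component is closed under addition. -/
lemma ZZ.add (hu : v W.a₂ ≤ 1) (hw : v W.a₄ < 1) {P₁ P₂ : W.Point} (h₁ : ZZ v P₁) (h₂ : ZZ v P₂)
    (hint : ∀ x y h, P₁ + P₂ = Point.some x y h → v x ≤ 1) : ZZ v (P₁ + P₂) := by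
  rcases h₁ with rfl | ⟨x₁, y₁, n₁, rfl, hx₁⟩
  · rw [zero_add]; exact h₂
  rcases h₂ with rfl | ⟨x₂, y₂, n₂, rfl, hx₂⟩
  · rw [add_zero]; exact Or.inr ⟨x₁, y₁, n₁, rfl, hx₁⟩
  by_cases hxy : x₁ = x₂ ∧ y₁ = -y₂
  · left
    exact Point.add_of_Y_eq hxy.1 (by rw [hW.negY]; exact hxy.2)
  · obtain ⟨x₃, y₃, n₃, hadd, hX⟩ := hW.add_formula n₁ n₂ hxy
    right
    refine ⟨x₃, y₃, n₃, hadd, le_antisymm (hint _ _ _ hadd) ?_⟩
    have hy₁ := v_y_le_one hW hu hw.le n₁ hx₁.le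
    have hy₂ := v_y_le_one hW hu hw.le n₂ hx₂.le
    have hR : v (x₁ * x₂ * (x₁ * x₂ - W.a₄) ^ 2) = 1 := by
      have : v (x₁ * x₂ - W.a₄) = 1 := by
        rw [Valuation.map_sub_eq_of_lt_left] <;> simp [hx₁, hx₂, hw]
      simp [hx₁, hx₂, this]
    have hL : v (y₁ * x₂ + y₂ * x₁) ≤ 1 := by
      apply Valuation.map_add_le <;> simp [hx₁, hx₂, hy₁, hy₂]
    have := congrArg v hX
    rw [hR, map_mul, map_pow] at this
    by_contra hlt
    rw [not_le] at hlt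
    have h3 : v x₃ * v (y₁ * x₂ + y₂ * x₁) ^ 2 < 1 := by
      calc v x₃ * v (y₁ * x₂ + y₂ * x₁) ^ 2 ≤ v x₃ * 1 := by
            gcongr
            exact pow_le_one₀ zero_le hL
        _ < 1 := by rwa [mul_one]
    exact h3.ne this

omit [DecidableEq K] in
lemma eq_one_of_mul_eq_one {a b : Γ₀} (h : a * b = 1) (ha : a ≤ 1) (hb : b ≤ 1) : a = 1 := by
  apply le_antisymm ha
  by_contra hlt
  rw [not_le] at hlt
  have : a * b < 1 := by
    calc a * b ≤ a * 1 := by gcongr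
      _ < 1 := by simpa using hlt
  exact absurd h this.ne

include hW hα hvα h2 in
/-- identity component plus a `PP` point. -/
lemma ZZ.add_PP (hw : v W.a₄ < 1) {g : Γ₀} {P₁ P₂ : W.Point} (h₁ : ZZ v P₁) (h₂ : PP v α g P₂) :
    PP v α g (P₁ + P₂) := by
  rcases h₁ with rfl | ⟨x₁, y₁, n₁, rfl, hx₁⟩
  · rw [zero_add]; exact h₂
  have hg := h₂.ne_zero
  obtain ⟨x₂, y₂, n₂, rfl, a₂, b₂, hx₂, hy₂⟩ := h₂
  have hu : v W.a₂ ≤ 1 := by rw [← hα, map_pow, hvα, one_pow]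
  have hx : x₁ ≠ x₂ := by
    rintro rfl
    rw [hx₁] at hx₂
    exact b₂.ne hx₂.symm
  obtain ⟨x₃, y₃, n₃, hadd, hX, hY⟩ := hW.add_of_X_ne n₁ n₂ hx
  have e₁ := hW.eqn n₁
  have hy₁ := v_y_le_one hW hu hw.le n₁ hx₁.le
  have hd : v (x₁ - x₂) = 1 := by
    rw [Valuation.map_sub_eq_of_lt_left, hx₁]
    rw [hx₁, hx₂]; exact b₂
  have hab : (y₁ - α * x₁) * (y₁ + α * x₁) = x₁ ^ 3 + W.a₄ * x₁ := by
    linear_combination e₁ - x₁ ^ 2 * hα
  have hvab : v (y₁ - α * x₁) * v (y₁ + α * x₁) = 1 := by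
    rw [← map_mul, hab, Valuation.map_add_eq_of_lt_left] <;> simp [hx₁, hw]
  have ha' : v (y₁ - α * x₁) ≤ 1 := Valuation.map_sub_le v hy₁ (by simp [hvα, hx₁])
  have hb' : v (y₁ + α * x₁) ≤ 1 := Valuation.map_add_le v hy₁ (by simp [hvα, hx₁])
  have ha : v (y₁ - α * x₁) = 1 := eq_one_of_mul_eq_one hvab ha' hb'
  rw [hx₂] at hy₂
  have hN : v (y₁ * x₂ - y₂ * x₁) = g := by
    have e : y₁ * x₂ - y₂ * x₁ = x₂ * (y₁ - α * x₁) - x₁ * (y₂ - α * x₂) := by ring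
    rw [e, Valuation.map_sub_eq_of_lt_left] <;> simp [hx₁, hx₂, ha, hy₂]
  have hx₃ : v x₃ = g := by
    have := congrArg v hX
    simp only [map_mul, map_pow, hx₁, hx₂, hd, hN] at this
    field_simp at this
    exact this
  refine ⟨x₃, y₃, n₃, hadd, a₂, b₂, hx₃, ?_⟩
  have hM : v ((y₁ - y₂) + α * (x₁ - x₂)) ≤ 1 := by
    have hy₂' : v y₂ ≤ 1 := v_y_le_one hW hu hw.le n₂ (hx₂.le.trans b₂.le)
    apply Valuation.map_add_le
    · exact Valuation.map_sub_le v hy₁ hy₂'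
    · simp [hvα, hd]
  have h1 : (y₃ - α * x₃) * (x₁ - x₂)
      = -(x₃ * ((y₁ - y₂) + α * (x₁ - x₂))) + (y₁ * x₂ - y₂ * x₁) := by
    linear_combination hY
  have h3 : x₁ * x₂ * (x₁ - x₂) ^ 2 - ((y₁ - y₂) + α * (x₁ - x₂)) * (y₁ * x₂ - y₂ * x₁)
      = -(W.a₄ * x₁ * x₂) + x₂ * (y₁ - α * x₁) * ((y₂ - α * x₂) + 2 * α * x₂)
        + x₁ * (y₂ - α * x₂) * ((y₁ - y₂) + α * (x₁ - x₂)) - 2 * x₁ ^ 2 * x₂ ^ 2 + x₁ * x₂ ^ 3 := by
    linear_combination (-x₂) * e₁ + (x₂ * x₁ ^ 2) * hα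
  have h4 : (y₃ - α * x₃) * (x₁ - x₂) * (x₁ * x₂ * (x₁ - x₂) ^ 2)
      = (y₁ * x₂ - y₂ * x₁) * (x₁ * x₂ * (x₁ - x₂) ^ 2
          - ((y₁ - y₂) + α * (x₁ - x₂)) * (y₁ * x₂ - y₂ * x₁)) := by
    rw [h1]
    linear_combination (-((y₁ - y₂) + α * (x₁ - x₂))) * hX
  have hg1 : g * g < g := mul_lt_of_lt_one_left (zero_lt_iff.2 hg) b₂
  have hR : v (x₁ * x₂ * (x₁ - x₂) ^ 2 - ((y₁ - y₂) + α * (x₁ - x₂)) * (y₁ * x₂ - y₂ * x₁)) < g := by
    rw [h3]
    apply Valuation.map_add_lt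
    · apply Valuation.map_sub_lt
      · apply Valuation.map_add_lt
        · apply Valuation.map_add_lt
          · rw [Valuation.map_neg]
            simp only [map_mul, hx₁, hx₂, mul_one]
            exact mul_lt_of_lt_one_left (zero_lt_iff.2 hg) hw
          · have : v ((y₂ - α * x₂) + 2 * α * x₂) ≤ g :=
              Valuation.map_add_le v hy₂.le (by simp [h2, hvα, hx₂])
            simp only [map_mul, hx₂, ha, mul_one]
            calc g * v ((y₂ - α * x₂) + 2 * α * x₂) ≤ g * g := by gcongr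
              _ < g := hg1
        · simp only [map_mul, hx₁, one_mul]
          calc v (y₂ - α * x₂) * v ((y₁ - y₂) + α * (x₁ - x₂)) ≤ v (y₂ - α * x₂) * 1 := by gcongr
            _ < g := by rwa [mul_one]
      · simp only [map_mul, hx₁, hx₂, h2, one_mul, pow_two]
        exact hg1
    · simp only [map_mul, map_pow, hx₁, hx₂, one_mul]
      calc g ^ 3 = g * g * g := by rw [pow_succ, pow_two]
        _ ≤ g * g * 1 := by gcongr
        _ < g := by rwa [mul_one]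
  have := congrArg v h4
  simp only [map_mul, map_pow, hx₁, hx₂, hd, hN, one_pow, mul_one, one_mul] at this
  rw [hx₃]
  have h5 : v (y₃ - α * x₃) * g < g * g := by
    rw [this]
    have := zero_lt_iff.2 hg
    gcongr
  exact lt_of_mul_lt_mul_right' h5

include hW in
lemma ZZ.add_T {P : W.Point} (h : ZZ v P) (hT : W.Nonsingular 0 0) :
    TT v (P + Point.some 0 0 hT) := by
  rcases h with rfl | ⟨x, y, n, rfl, hx⟩
  · rw [zero_add]; exact ⟨0, 0, hT, rfl, by simp⟩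
  · have hx0 : x ≠ 0 := by
      rintro rfl
      simp at hx
    obtain ⟨n', e⟩ := hW.add_T n hx0 hT
    exact ⟨_, _, n', e, by simp [hx]⟩

include hW in
lemma PP.add_T {γ : Γ₀} {P : W.Point} (h : PP v α γ P) (hT : W.Nonsingular 0 0) :
    PP v (-α) (v W.a₄ / γ) (P + Point.some 0 0 hT) := by
  have hg := h.ne_zero
  obtain ⟨x, y, n, rfl, a, b, hx, hy⟩ := h
  have hx0 : x ≠ 0 := by
    rintro rfl
    rw [map_zero] at hx
    exact hg hx.symm
  have hw0 : v W.a₄ ≠ 0 := by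
    rw [Valuation.ne_zero_iff]
    intro h0
    have := (Affine.nonsingular_zero (W := W)).1 hT
    rcases this.2 with h | h
    · exact h hW.a₃
    · exact h h0
  obtain ⟨n', e⟩ := hW.add_T n hx0 hT
  refine ⟨_, _, n', e, ?_, ?_, by rw [map_div₀, hx], ?_⟩
  · rw [lt_div_iff₀ (zero_lt_iff.2 hg)]
    exact mul_lt_of_lt_one_right (zero_lt_iff.2 hw0) b
  · rw [div_lt_one₀ (zero_lt_iff.2 hg)]; exact a
  · have e2 : -(W.a₄ * y / x ^ 2) - -α * (W.a₄ / x) = -(W.a₄ / x ^ 2 * (y - α * x)) := by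
      field_simp
      ring
    rw [e2, Valuation.map_neg, map_mul, map_div₀, map_div₀, map_pow, hx]
    rw [hx] at hy
    calc v W.a₄ / γ ^ 2 * v (y - α * x) < v W.a₄ / γ ^ 2 * γ := by
          have : 0 < v W.a₄ / γ ^ 2 := zero_lt_iff.2 (div_ne_zero hw0 (pow_ne_zero 2 hg))
          gcongr
      _ = v W.a₄ / γ := by field_simp

include hW in
lemma TT.add_T {P : W.Point} (h : TT v P) (hT : W.Nonsingular 0 0)
    (hint : ∀ x y h, P + Point.some 0 0 hT = Point.some x y h → v x ≤ 1) :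
    ZZ v (P + Point.some 0 0 hT) := by
  obtain ⟨x, y, n, rfl, hx⟩ := h
  by_cases hx0 : x = 0
  · subst hx0
    have : y = 0 := by
      have e := hW.eqn n
      have : y ^ 2 = 0 := by rw [e]; ring
      exact pow_eq_zero_iff two_ne_zero |>.1 this
    subst this
    left
    exact hW.T_add_T hT
  · obtain ⟨n', e⟩ := hW.add_T n hx0 hT
    right
    refine ⟨_, _, n', e, le_antisymm (hint _ _ _ e) ?_⟩
    rw [map_div₀, one_le_div₀ (zero_lt_iff.2 ((Valuation.ne_zero_iff v).2 hx0))]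
    exact hx

include hW hα hvα in
/-- every integral point lies in one of the four classes. -/
lemma classify (P : W.Point) (hint : ∀ x y h, P = Point.some x y h → v x ≤ 1) :
    ZZ v P ∨ TT v P ∨ ∃ γ, PP v α γ P ∨ PP v (-α) γ P := by
  rcases P with _ | ⟨x, y, n⟩
  · left; left; rfl
  have hx1 := hint x y n rfl
  rcases hx1.lt_or_eq with hlt | heq
  swap
  · left; right; exact ⟨x, y, n, rfl, heq⟩
  rcases le_or_gt (v x) (v W.a₄) with hle | hgt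
  · right; left; exact ⟨x, y, n, rfl, hle⟩
  right; right
  refine ⟨v x, ?_⟩
  have e := hW.eqn n
  have hg : v x ≠ 0 := (lt_of_le_of_lt zero_le hgt).ne'
  have hab : (y - α * x) * (y - -α * x) = x ^ 3 + W.a₄ * x := by
    linear_combination e - x ^ 2 * hα
  have hv : v (y - α * x) * v (y - -α * x) < v x * v x := by
    rw [← map_mul, hab]
    apply Valuation.map_add_lt
    · rw [map_pow, pow_succ, pow_two]
      exact mul_lt_of_lt_one_right (zero_lt_iff.2 (mul_ne_zero hg hg)) hlt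
    · rw [map_mul]
      have := zero_lt_iff.2 hg
      gcongr
  by_contra hcon
  rw [not_or] at hcon
  have h1 : v x ≤ v (y - α * x) := by
    by_contra h
    rw [not_le] at h
    exact hcon.1 ⟨x, y, n, rfl, hgt, hlt, rfl, h⟩
  have h2 : v x ≤ v (y - -α * x) := by
    by_contra h
    rw [not_le] at h
    exact hcon.2 ⟨x, y, n, rfl, hgt, hlt, rfl, h⟩
  have : v x * v x ≤ v (y - α * x) * v (y - -α * x) := by gcongr
  exact absurd hv (not_lt.2 this)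

end add

section comp

variable (v) in
/-- normalised component. -/
def Norm (α : K) (P : W.Point) (γ : Γ₀) : Prop :=
  (γ = 1 ∧ ZZ v P) ∨ PP v α γ P ∨ PP v (-α) γ⁻¹ P ∨ (γ = v W.a₄ ∧ TT v P)

variable (v) in
/-- component modulo `v(w)²`. -/
def Comp (α : K) (P : W.Point) (γ : Γ₀) : Prop :=
  ∃ j : ℤ, Norm v α P (γ * v W.a₄ ^ (2 * j))

omit [DecidableEq K] in
lemma Norm.comp {α : K} {P : W.Point} {γ : Γ₀} (h : Norm v α P γ) : Comp v α P γ :=
  ⟨0, by simpa using h⟩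

omit [DecidableEq K] in
lemma Comp.shift {α : K} {P : W.Point} {γ : Γ₀} (hw0 : v W.a₄ ≠ 0) (j : ℤ)
    (h : Comp v α P (γ * v W.a₄ ^ (2 * j))) : Comp v α P γ := by
  obtain ⟨i, hi⟩ := h
  refine ⟨j + i, ?_⟩
  rwa [mul_add, zpow_add₀ hw0, ← mul_assoc]

omit [DecidableEq K] in
lemma Comp.shift' {α : K} {P : W.Point} {γ : Γ₀} (hw0 : v W.a₄ ≠ 0) (j : ℤ)
    (h : Comp v α P γ) : Comp v α P (γ * v W.a₄ ^ (2 * j)) := by
  apply Comp.shift hw0 (-j)
  rwa [mul_assoc, ← zpow_add₀ hw0, mul_neg, add_neg_cancel, zpow_zero, mul_one]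

omit [DecidableEq K] in
lemma Comp.congr {α : K} {P Q : W.Point} {γ δ : Γ₀} (h : Comp v α P γ) (hPQ : P = Q)
    (hγ : γ = δ) : Comp v α Q δ := by
  subst hPQ; subst hγ; exact h

variable (hW : IsModel W) {α : K} (hα : α ^ 2 = W.a₂) (hvα : v α = 1) (h2 : v (2 : K) = 1)
  (hw0 : W.a₄ ≠ 0) (hw1 : v W.a₄ < 1) (G : AddSubgroup W.Point)
  (hG : ∀ x y h, Point.some x y h ∈ G → v x ≤ 1)
  (hT : Point.some 0 0 (hW.nonsingular_zero hw0) ∈ G)

include hW hw0 in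
lemma Norm.neg {P : W.Point} {γ : Γ₀} (h : Norm v α P γ) : Comp v α (-P) γ⁻¹ := by
  have hω : v W.a₄ ≠ 0 := (Valuation.ne_zero_iff v).2 hw0
  rcases h with ⟨rfl, h⟩ | h | h | ⟨rfl, h⟩
  · exact Norm.comp (Or.inl ⟨inv_one, h.neg hW⟩)
  · exact Norm.comp (Or.inr (Or.inr (Or.inl (by rw [inv_inv]; exact h.neg hW))))
  · exact Norm.comp (Or.inr (Or.inl (by have := h.neg hW; rwa [neg_neg] at this)))
  · refine ⟨1, Or.inr (Or.inr (Or.inr ⟨?_, h.neg hW⟩))⟩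
    rw [mul_one, zpow_two]
    field_simp

include hW hw0 in
lemma Comp.neg {P : W.Point} {γ : Γ₀} (h : Comp v α P γ) : Comp v α (-P) γ⁻¹ := by
  have hω : v W.a₄ ≠ 0 := (Valuation.ne_zero_iff v).2 hw0
  obtain ⟨j, hj⟩ := h
  have := Norm.neg hW hw0 hj
  apply Comp.shift hω (-j)
  refine this.congr rfl ?_
  rw [mul_inv, mul_neg, zpow_neg]

include hG hT in
lemma Norm.add_T {P : W.Point} {γ : Γ₀} (hP : P ∈ G) (h : Norm v α P γ) :
    Comp v α (P + Point.some 0 0 (hW.nonsingular_zero hw0)) (γ * v W.a₄) := by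
  have hω : v W.a₄ ≠ 0 := (Valuation.ne_zero_iff v).2 hw0
  rcases h with ⟨rfl, h⟩ | h | h | ⟨rfl, h⟩
  · exact Norm.comp (Or.inr (Or.inr (Or.inr ⟨one_mul _, h.add_T hW _⟩)))
  · refine ⟨-1, Or.inr (Or.inr (Or.inl ?_))⟩
    have hg := h.ne_zero
    have := h.add_T hW (hW.nonsingular_zero hw0)
    convert this using 1
    rw [mul_neg, mul_one, zpow_neg, zpow_two]
    field_simp
  · refine Norm.comp (Or.inr (Or.inl ?_))
    have hg := h.ne_zero
    have := h.add_T hW (hW.nonsingular_zero hw0)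
    rw [neg_neg] at this
    convert this using 1
    rw [div_inv_eq_mul, mul_comm]
  · refine ⟨-1, Or.inl ⟨?_, h.add_T hW _ fun x y n e => hG x y n (e ▸ G.add_mem hP hT)⟩⟩
    rw [mul_neg, mul_one, zpow_neg, zpow_two]
    field_simp

include hG hT in
lemma Comp.add_T {P : W.Point} {γ : Γ₀} (hP : P ∈ G) (h : Comp v α P γ) :
    Comp v α (P + Point.some 0 0 (hW.nonsingular_zero hw0)) (γ * v W.a₄) := by
  have hω : v W.a₄ ≠ 0 := (Valuation.ne_zero_iff v).2 hw0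
  obtain ⟨j, hj⟩ := h
  have := Norm.add_T hW hw0 G hG hT hP hj
  apply Comp.shift hω j
  refine this.congr rfl ?_
  rw [mul_assoc, mul_assoc, mul_comm (v W.a₄)]

include hW hvα h2 hG in
lemma add_PN {g₁ g₂ : Γ₀} {P₁ P₂ : W.Point} (hP₁ : P₁ ∈ G) (hP₂ : P₂ ∈ G)
    (h₁ : PP v (-α) g₁ P₁) (h₂ : PP v α g₂ P₂) : Comp v α (P₁ + P₂) (g₁⁻¹ * g₂) := by
  have hg₁ := h₁.ne_zero
  have hg₂ := h₂.ne_zero
  rcases lt_trichotomy g₂ g₁ with hlt | heq | hgt
  · refine Norm.comp (Or.inr (Or.inl ?_))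
    have := PP.add_lt hW hvα h2 h₁ h₂ hlt
    rwa [div_eq_inv_mul] at this
  · subst heq
    refine Norm.comp (Or.inl ⟨inv_mul_cancel₀ hg₂, ?_⟩)
    exact PP.add_eq hW hvα h2 h₁ h₂ fun x y n e => hG x y n (e ▸ G.add_mem hP₁ hP₂)
  · refine Norm.comp (Or.inr (Or.inr (Or.inl ?_)))
    have h₂' : PP v (- -α) g₂ P₂ := by rwa [neg_neg]
    have := PP.add_lt hW (α := -α) (by rwa [Valuation.map_neg]) h2 h₂' h₁ hgt
    rw [add_comm] at this
    convert this using 1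
    rw [mul_inv, inv_inv, div_eq_mul_inv]

include hW hvα h2 hG hT in
lemma add_PP {g₁ g₂ : Γ₀} {P₁ P₂ : W.Point} (hP₁ : P₁ ∈ G) (hP₂ : P₂ ∈ G)
    (h₁ : PP v α g₁ P₁) (h₂ : PP v α g₂ P₂) : Comp v α (P₁ + P₂) (g₁ * g₂) := by
  have hω : v W.a₄ ≠ 0 := (Valuation.ne_zero_iff v).2 hw0
  have hg₁ := h₁.ne_zero
  have hg₂ := h₂.ne_zero
  have h₁' := h₁.add_T hW (hW.nonsingular_zero hw0)
  have hP₁' := G.add_mem hP₁ hT
  have h3 := add_PN hW hvα h2 G hG hP₁' hP₂ h₁' h₂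
  have h4 := Comp.add_T hW hw0 G hG hT (G.add_mem hP₁' hP₂) h3
  refine h4.congr ?_ ?_
  · have := hW.T_add_T (hW.nonsingular_zero hw0)
    calc _ = P₁ + P₂ + (Point.some 0 0 (hW.nonsingular_zero hw0)
              + Point.some 0 0 (hW.nonsingular_zero hw0)) := by abel
      _ = P₁ + P₂ := by rw [this, add_zero]
  · field_simp

include hW hvα h2 hG hT in
lemma add_NN {g₁ g₂ : Γ₀} {P₁ P₂ : W.Point} (hP₁ : P₁ ∈ G) (hP₂ : P₂ ∈ G)
    (h₁ : PP v (-α) g₁ P₁) (h₂ : PP v (-α) g₂ P₂) : Comp v α (P₁ + P₂) (g₁ * g₂)⁻¹ := by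
  have h₁' := h₁.neg hW
  have h₂' := h₂.neg hW
  rw [neg_neg] at h₁' h₂'
  have := add_PP hW hvα h2 hw0 G hG hT (G.neg_mem hP₁) (G.neg_mem hP₂) h₁' h₂'
  refine (this.neg hW hw0).congr ?_ rfl
  abel

include hW hα hvα h2 hw1 hG hT in
lemma add_Z {γ : Γ₀} {P₁ P₂ : W.Point} (hP₁ : P₁ ∈ G) (hP₂ : P₂ ∈ G)
    (h₁ : ZZ v P₁) (h₂ : Norm v α P₂ γ) : Comp v α (P₁ + P₂) γ := by
  have hu : v W.a₂ ≤ 1 := by rw [← hα, map_pow, hvα, one_pow]
  rcases h₂ with ⟨rfl, h⟩ | h | h | ⟨rfl, h⟩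
  · exact Norm.comp (Or.inl ⟨rfl, ZZ.add hW hu hw1 h₁ h
      fun x y n e => hG x y n (e ▸ G.add_mem hP₁ hP₂)⟩)
  · exact Norm.comp (Or.inr (Or.inl (ZZ.add_PP hW hα hvα h2 hw1 h₁ h)))
  · exact Norm.comp (Or.inr (Or.inr (Or.inl (ZZ.add_PP hW (α := -α) (by rw [neg_sq, hα])
      (by rwa [Valuation.map_neg]) h2 hw1 h₁ h))))
  · have hP₂' := G.add_mem hP₂ hT
    have h3 := h.add_T hW (hW.nonsingular_zero hw0) fun x y n e => hG x y n (e ▸ hP₂')
    have h4 := ZZ.add hW hu hw1 h₁ h3 fun x y n e => hG x y n (e ▸ G.add_mem hP₁ hP₂')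
    have h5 := h4.add_T hW (hW.nonsingular_zero hw0)
    refine Norm.comp (Or.inr (Or.inr (Or.inr ⟨rfl, ?_⟩)))
    convert h5 using 1
    have := hW.T_add_T (hW.nonsingular_zero hw0)
    calc P₁ + P₂ = P₁ + P₂ + (Point.some 0 0 (hW.nonsingular_zero hw0)
              + Point.some 0 0 (hW.nonsingular_zero hw0)) := by rw [this, add_zero]
      _ = _ := by abel

include hW hα hvα h2 hw1 hG hT in
lemma add_TT {γ : Γ₀} {P₁ P₂ : W.Point} (hP₁ : P₁ ∈ G) (hP₂ : P₂ ∈ G)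
    (h₁ : TT v P₁) (h₂ : Norm v α P₂ γ) : Comp v α (P₁ + P₂) (v W.a₄ * γ) := by
  have hP₁' := G.add_mem hP₁ hT
  have h3 := h₁.add_T hW (hW.nonsingular_zero hw0) fun x y n e => hG x y n (e ▸ hP₁')
  have h4 := add_Z hW hα hvα h2 hw0 hw1 G hG hT hP₁' hP₂ h3 h₂
  have h5 := Comp.add_T hW hw0 G hG hT (G.add_mem hP₁' hP₂) h4
  refine h5.congr ?_ (mul_comm _ _)
  have := hW.T_add_T (hW.nonsingular_zero hw0)
  calc _ = P₁ + P₂ + (Point.some 0 0 (hW.nonsingular_zero hw0)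
            + Point.some 0 0 (hW.nonsingular_zero hw0)) := by abel
    _ = P₁ + P₂ := by rw [this, add_zero]

include hW hα hvα h2 hw1 hG hT in
lemma Norm.add {γ₁ γ₂ : Γ₀} {P₁ P₂ : W.Point} (hP₁ : P₁ ∈ G) (hP₂ : P₂ ∈ G)
    (h₁ : Norm v α P₁ γ₁) (h₂ : Norm v α P₂ γ₂) : Comp v α (P₁ + P₂) (γ₁ * γ₂) := by
  rcases h₁ with ⟨rfl, h⟩ | h | h | ⟨rfl, h⟩
  · rw [one_mul]; exact add_Z hW hα hvα h2 hw0 hw1 G hG hT hP₁ hP₂ h h₂
  · rcases h₂ with ⟨rfl, h'⟩ | h' | h' | ⟨rfl, h'⟩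
    · rw [mul_one, add_comm]
      exact add_Z hW hα hvα h2 hw0 hw1 G hG hT hP₂ hP₁ h' (Or.inr (Or.inl h))
    · exact add_PP hW hvα h2 hw0 G hG hT hP₁ hP₂ h h'
    · have := add_PN hW hvα h2 G hG hP₂ hP₁ h' h
      rw [inv_inv] at this
      exact this.congr (add_comm _ _) (mul_comm _ _)
    · rw [mul_comm, add_comm]
      exact add_TT hW hα hvα h2 hw0 hw1 G hG hT hP₂ hP₁ h' (Or.inr (Or.inl h))
  · rcases h₂ with ⟨rfl, h'⟩ | h' | h' | ⟨rfl, h'⟩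
    · rw [mul_one, add_comm]
      exact add_Z hW hα hvα h2 hw0 hw1 G hG hT hP₂ hP₁ h' (Or.inr (Or.inr (Or.inl h)))
    · have := add_PN hW hvα h2 G hG hP₁ hP₂ h h'
      rwa [inv_inv] at this
    · have := add_NN hW hvα h2 hw0 G hG hT hP₁ hP₂ h h'
      refine this.congr rfl ?_
      rw [mul_inv, inv_inv, inv_inv]
    · rw [mul_comm, add_comm]
      exact add_TT hW hα hvα h2 hw0 hw1 G hG hT hP₂ hP₁ h' (Or.inr (Or.inr (Or.inl h)))
  · exact add_TT hW hα hvα h2 hw0 hw1 G hG hT hP₁ hP₂ h h₂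

include hW hα hvα h2 hw1 hG hT in
lemma Comp.add {γ₁ γ₂ : Γ₀} {P₁ P₂ : W.Point} (hP₁ : P₁ ∈ G) (hP₂ : P₂ ∈ G)
    (h₁ : Comp v α P₁ γ₁) (h₂ : Comp v α P₂ γ₂) : Comp v α (P₁ + P₂) (γ₁ * γ₂) := by
  have hω : v W.a₄ ≠ 0 := (Valuation.ne_zero_iff v).2 hw0
  obtain ⟨i, hi⟩ := h₁
  obtain ⟨j, hj⟩ := h₂
  have := Norm.add hW hα hvα h2 hw0 hw1 G hG hT hP₁ hP₂ hi hj
  apply Comp.shift hω (i + j)
  refine this.congr rfl ?_
  rw [mul_add, zpow_add₀ hω]
  simp only [mul_assoc, mul_left_comm, mul_comm]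

include hW hα hvα h2 hw1 hG hT in
lemma Comp.nsmul {γ : Γ₀} {P : W.Point} (hP : P ∈ G) (h : Comp v α P γ) (n : ℕ) :
    Comp v α (n • P) (γ ^ n) := by
  induction n with
  | zero =>
    rw [zero_smul, pow_zero]
    exact Norm.comp (Or.inl ⟨rfl, Or.inl rfl⟩)
  | succ n ih =>
    rw [succ_nsmul, pow_succ]
    exact Comp.add hW hα hvα h2 hw0 hw1 G hG hT (G.nsmul_mem hP n) hP ih h

omit [DecidableEq K] in
lemma Comp.zero {γ : Γ₀} (h : Comp v α (0 : W.Point) γ) : ∃ j : ℤ, γ * v W.a₄ ^ (2 * j) = 1 := by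
  obtain ⟨j, hj⟩ := h
  refine ⟨j, ?_⟩
  rcases hj with ⟨h, -⟩ | ⟨x, y, n, h, -⟩ | ⟨x, y, n, h, -⟩ | ⟨-, x, y, n, h, -⟩
  · exact h
  · exact absurd h.symm (Point.some_ne_zero n)
  · exact absurd h.symm (Point.some_ne_zero n)
  · exact absurd h.symm (Point.some_ne_zero n)

end comp

section main

/-- **Main result of the component bookkeeping.**  On `y² = x³ + u x² + w x` with `u = α²` a unit,
`2` a unit, `w = ± d ^ p` with `v d < 1`, `p` odd: a `p`-torsion point reducing to the node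
has `v x ∈ (v d) ^ ℤ` and `v w < v x`. -/
theorem comp_main (hW : IsModel W) {α : K} (hα : α ^ 2 = W.a₂) (hvα : v α = 1)
    (h2 : v (2 : K) = 1) {p : ℕ} (hp : Odd p) {d : K} (hd0 : d ≠ 0) (hd : v d < 1)
    (hw : W.a₄ = d ^ p ∨ W.a₄ = -d ^ p)
    (hE1 : ∀ P : W.Point, (2 * p) • P = 0 → ∀ x y h, P = Point.some x y h → v x ≤ 1)
    {x y : K} (n : W.Nonsingular x y) (hP : p • Point.some x y n = 0) (hx : v x < 1) :
    (∃ j : ℤ, v x = v d ^ j) ∧ v W.a₄ < v x ∧ (v (y - α * x) < v x ∨ v (y + α * x) < v x) := by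
  have hp0 : p ≠ 0 := by rintro rfl; simp at hp
  have hD0 : v d ≠ 0 := (Valuation.ne_zero_iff v).2 hd0
  have hωD : v W.a₄ = v d ^ p := by
    rcases hw with h | h <;> rw [h] <;> simp
  have hw0 : W.a₄ ≠ 0 := by
    rw [← Valuation.ne_zero_iff v, hωD]; exact pow_ne_zero p hD0
  have hw1 : v W.a₄ < 1 := by rw [hωD]; exact pow_lt_one₀ zero_le hd hp0
  set G : AddSubgroup W.Point := (nsmulAddMonoidHom (2 * p) : W.Point →+ W.Point).ker with hGdef
  have memG : ∀ Q : W.Point, Q ∈ G ↔ (2 * p) • Q = 0 := fun Q => by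
    rw [hGdef, AddMonoidHom.mem_ker]; rfl
  have hG : ∀ x y h, Point.some x y h ∈ G → v x ≤ 1 := fun x y h hm =>
    hE1 _ ((memG _).1 hm) x y h rfl
  have hT : Point.some 0 0 (hW.nonsingular_zero hw0) ∈ G := by
    rw [memG, mul_comm, mul_smul, two_nsmul, hW.T_add_T, smul_zero]
  have hPG : Point.some x y n ∈ G := by
    rw [memG, mul_smul, hP, smul_zero]
  have key : ∀ δ : Γ₀, Comp v α (Point.some x y n) δ → ∃ j : ℤ, δ = v d ^ j ∧ Even j := by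
    intro δ hδ
    have h1 := Comp.nsmul hW hα hvα h2 hw0 hw1 G hG hT hPG hδ p
    rw [hP] at h1
    obtain ⟨j, hj⟩ := h1.zero
    refine ⟨-(2 * j), ?_, (even_two_mul j).neg⟩
    have h3 : δ ^ p = (v d ^ (-(2 * j))) ^ p := by
      rw [hωD] at hj
      have h4 : ((v d ^ p) ^ (2 * j)) ≠ 0 := zpow_ne_zero _ (pow_ne_zero p hD0)
      rw [eq_comm, ← div_eq_iff h4] at hj
      rw [← hj, one_div, ← zpow_neg, ← zpow_natCast, ← zpow_natCast, ← zpow_mul, ← zpow_mul,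
        mul_comm]
    exact (pow_left_inj hp0).1 h3
  rcases classify hW hα hvα (Point.some x y n) (fun x' y' h' e => hG x' y' h' (e ▸ hPG)) with
    h | h | ⟨γ, h | h⟩
  · exfalso
    rcases h with h | ⟨x', y', n', e, hx'⟩
    · exact Point.some_ne_zero n h
    · rw [Point.some.injEq] at e
      rw [e.1] at hx
      exact hx.ne hx'
  · exfalso
    obtain ⟨j, hj, hev⟩ := key (v W.a₄) (Norm.comp (Or.inr (Or.inr (Or.inr ⟨rfl, h⟩))))
    rw [hωD, ← zpow_natCast] at hj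
    have := zpow_right_injective₀ (zero_lt_iff.2 hD0) hd.ne hj
    rw [← this] at hev
    have hodd : Odd (p : ℤ) := by exact_mod_cast hp
    exact (Int.not_even_iff_odd.2 hodd) hev
  · obtain ⟨j, hj, -⟩ := key γ (Norm.comp (Or.inr (Or.inl h)))
    obtain ⟨x', y', n', e, a, b, hx', hy'⟩ := h
    rw [Point.some.injEq] at e
    obtain ⟨rfl, rfl⟩ := e
    exact ⟨⟨j, by rw [hx', hj]⟩, by rw [hx']; exact a, Or.inl hy'⟩
  · obtain ⟨j, hj, -⟩ := key γ⁻¹ (Norm.comp (Or.inr (Or.inr (Or.inl (by rwa [inv_inv])))))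
    obtain ⟨x', y', n', e, a, b, hx', hy'⟩ := h
    rw [Point.some.injEq] at e
    obtain ⟨rfl, rfl⟩ := e
    refine ⟨⟨-j, by rw [hx', zpow_neg, ← hj, inv_inv]⟩, by rw [hx']; exact a, Or.inr ?_⟩
    have : y - -α * x = y + α * x := by ring
    rwa [this] at hy'

end main

end Fermat.Agent.S05
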