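import Fermat.Agent.S05.Add

/-!
# S05, part A: the kernel of reduction `E₁` of the model curve has no torsion prime to the
residue characteristic.
-/

set_option autoImplicit false

namespace Fermat.Agent.S05

open WeierstrassCurve WeierstrassCurve.Affine

variable {K : Type*} [Field K]
variable {Γ₀ : Type*} [LinearOrderedCommGroupWithZero Γ₀] (v : Valuation K Γ₀)

theorem v_natCast_le_one (n : ℕ) : v (n : K) ≤ 1 := by
  induction n with
  | zero => simp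
  | succ n ih =>
    rw [Nat.cast_succ]
    exact Valuation.map_add_le v ih (by simp)

theorem one_lt_of_one_lt_sq {a : Γ₀} (ha : 1 < a ^ 2) : 1 < a := by
  by_contra h
  exact absurd (pow_le_one₀ zero_le (not_lt.1 h)) (not_le.2 ha)

/-- The kernel of reduction. -/
def InE1 {E : WeierstrassCurve.Affine K} (P : E.Point) : Prop :=
  match P with
  | .zero => True
  | .some x _ _ => 1 < v x

/-- The local parameter `x / y` at the origin. -/
def zc {E : WeierstrassCurve.Affine K} (P : E.Point) : K :=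
  match P with
  | .zero => 0
  | .some x y _ => x / y

@[simp] theorem InE1_zero {E : WeierstrassCurve.Affine K} : InE1 v (0 : E.Point) := trivial

@[simp] theorem InE1_some {E : WeierstrassCurve.Affine K} {x y : K} (h : E.Nonsingular x y) :
    InE1 v (Point.some x y h) ↔ 1 < v x := Iff.rfl

@[simp] theorem zc_zero {E : WeierstrassCurve.Affine K} : zc (0 : E.Point) = 0 := rfl

@[simp] theorem zc_some {E : WeierstrassCurve.Affine K} {x y : K} (h : E.Nonsingular x y) :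
    zc (Point.some x y h) = x / y := rfl

/-- Every affine point with `x ≠ 0` can be written in `(x, s)`-coordinates. -/
theorem exists_s {E : WeierstrassCurve.Affine K} {x y : K} (h : E.Nonsingular x y) (hx : x ≠ 0) :
    ∃ (s : K) (h' : E.Nonsingular x (x * s)), Point.some x y h = Point.some x (x * s) h' := by
  refine ⟨y / x, ?_⟩
  apply exists_some_eq h rfl
  field_simp

variable {v}

theorem ne_zero_of_one_lt {x : K} (h : 1 < v x) : x ≠ 0 := by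
  rintro rfl
  simp at h

/-- For a point in `E₁`, `v s ^ 2 = v x`. -/
theorem v_s_sq {U W x s : K} (hU : v U ≤ 1) (hW : v W ≤ 1) (hx : 1 < v x)
    (e : x * s ^ 2 = x ^ 2 + U * x + W) : v s ^ 2 = v x := by
  have hx0 : x ≠ 0 := ne_zero_of_one_lt hx
  have e' : s ^ 2 = x + (U + W / x) := by
    field_simp
    linear_combination e
  rw [← map_pow, e']
  apply Valuation.map_add_eq_of_lt_left
  refine lt_of_le_of_lt ?_ hx
  apply Valuation.map_add_le v hU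
  rw [map_div₀]
  exact div_le_one_of_le₀ (hW.trans hx.le) zero_le

section
variable [DecidableEq K]

omit [DecidableEq K] in
theorem zc_final {X s₁ s₂ s₃ x₁ x₂ : K} (hX : X ≠ 0) (hx₁ : x₁ ≠ 0) (hx₂ : x₂ ≠ 0)
    (hs₁ : s₁ ≠ 0) (hs₂ : s₂ ≠ 0) (hs₃ : s₃ ≠ 0) (hD : s₁ + s₂ ≠ 0) :
    X / (X * s₃) = (x₁ / (x₁ * s₁) + x₂ / (x₂ * s₂)) *
      (1 + -((s₁ + s₂) * s₃ - s₁ * s₂) / ((s₁ + s₂) * s₃)) := by
  field_simp
  ring

/-- core computation for two affine points of `E₁` with `s₁ + s₂ ≠ 0`. -/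
theorem IsMC.E1_add_core {E : WeierstrassCurve.Affine K} (hE : IsMC E)
    (hU : v E.a₂ ≤ 1) (hW : v E.a₄ ≤ 1) {x₁ x₂ s₁ s₂ : K}
    (hx₁ : 1 < v x₁) (hx₂ : 1 < v x₂) (hD : s₁ + s₂ ≠ 0)
    (h₁ : E.Nonsingular x₁ (x₁ * s₁)) (h₂ : E.Nonsingular x₂ (x₂ * s₂)) :
    InE1 v (Point.some _ _ h₁ + Point.some _ _ h₂) ∧
      ∃ δ : K, v δ < 1 ∧ zc (Point.some _ _ h₁ + Point.some _ _ h₂) =
        (zc (Point.some _ _ h₁) + zc (Point.some _ _ h₂)) * (1 + δ) := by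
  have hx₁0 : x₁ ≠ 0 := ne_zero_of_one_lt hx₁
  have hx₂0 : x₂ ≠ 0 := ne_zero_of_one_lt hx₂
  have e₁ := hE.equation_s hx₁0 h₁.1
  have e₂ := hE.equation_s hx₂0 h₂.1
  have hs₁ := v_s_sq hU hW hx₁ e₁
  have hs₂ := v_s_sq hU hW hx₂ e₂
  have ha : 1 < v s₁ := one_lt_of_one_lt_sq (hs₁ ▸ hx₁)
  have hb : 1 < v s₂ := one_lt_of_one_lt_sq (hs₂ ▸ hx₂)
  have hs₁0 : s₁ ≠ 0 := ne_zero_of_one_lt ha
  have hs₂0 : s₂ ≠ 0 := ne_zero_of_one_lt hb
  have hab : 1 < v s₁ * v s₂ := one_lt_mul_of_lt_of_le ha hb.le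
  -- valuation of M
  have hx12 : 1 < v (x₁ * x₂) := by
    rw [map_mul]; exact one_lt_mul_of_lt_of_le hx₁ hx₂.le
  have hvM : v (x₁ * x₂ - E.a₄) = v (x₁ * x₂) :=
    Valuation.map_sub_eq_of_lt_left v (lt_of_le_of_lt hW hx12)
  have hM : x₁ * x₂ - E.a₄ ≠ 0 := ne_zero_of_one_lt (hvM ▸ hx12)
  -- valuation of D
  have hvD : v (s₁ + s₂) < v s₁ * v s₂ := by
    refine lt_of_le_of_lt (Valuation.map_add v s₁ s₂) (max_lt ?_ ?_)
    · exact (lt_mul_iff_one_lt_right (zero_lt_one.trans ha)).mpr hb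
    · exact (lt_mul_iff_one_lt_left (zero_lt_one.trans hb)).mpr ha
  have hvD0 : 0 < v (s₁ + s₂) := (Valuation.pos_iff v).mpr hD
  have hvD2 : v (s₁ + s₂) ^ 2 < v (x₁ * x₂) := by
    rw [map_mul, ← hs₁, ← hs₂, ← mul_pow]
    exact pow_lt_pow_left₀ hvD zero_le two_ne_zero
  obtain ⟨x₃, s₃, h₃, hadd, hx₃def, hs₃def⟩ := hE.add_plus' hx₁0 hx₂0 hD hM h₁ h₂
  rw [hadd]
  have hx₃ : 1 < v x₃ := by
    rw [hx₃def, map_div₀, map_pow, map_mul, map_pow, hvM,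
      one_lt_div₀ (mul_pos (zero_lt_one.trans hx12) (pow_pos hvD0 2)), sq (v (x₁ * x₂))]
    exact mul_lt_mul' le_rfl hvD2 zero_le (zero_lt_one.trans hx12)
  refine ⟨hx₃, ?_⟩
  have hx₃0 := ne_zero_of_one_lt hx₃
  obtain ⟨R, hRdef⟩ : ∃ R, R = E.a₂ + E.a₄ / x₁ + E.a₄ / x₂ +
    (s₁ + s₂) ^ 2 * E.a₄ / (x₁ * x₂ - E.a₄) := ⟨_, rfl⟩
  have hI4 : (s₁ + s₂) * s₃ = s₁ * s₂ + R := by
    rw [hs₃def, alg_I4 hx₁0 hx₂0 hD hM e₂, hRdef]; ring
  have hR : v R ≤ 1 := by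
    rw [hRdef]
    refine Valuation.map_add_le v (Valuation.map_add_le v (Valuation.map_add_le v hU ?_) ?_) ?_
    · rw [map_div₀]; exact div_le_one_of_le₀ (hW.trans hx₁.le) zero_le
    · rw [map_div₀]; exact div_le_one_of_le₀ (hW.trans hx₂.le) zero_le
    · rw [map_div₀, map_mul, map_pow, hvM]
      refine div_le_one_of_le₀ ?_ zero_le
      calc v (s₁ + s₂) ^ 2 * v E.a₄ ≤ v (s₁ + s₂) ^ 2 * 1 := by gcongr
        _ ≤ v (x₁ * x₂) := by rw [mul_one]; exact hvD2.le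
  have hvDs : v ((s₁ + s₂) * s₃) = v s₁ * v s₂ := by
    rw [hI4, ← map_mul]
    exact Valuation.map_add_eq_of_lt_left v (lt_of_le_of_lt hR (by rw [map_mul]; exact hab))
  have hDs0 : (s₁ + s₂) * s₃ ≠ 0 := ne_zero_of_one_lt (hvDs ▸ hab)
  have hs₃0 : s₃ ≠ 0 := right_ne_zero_of_mul hDs0
  refine ⟨-R / ((s₁ + s₂) * s₃), ?_, ?_⟩
  · rw [map_div₀, Valuation.map_neg, hvDs]
    exact (div_lt_one₀ (zero_lt_one.trans hab)).mpr (lt_of_le_of_lt hR hab)
  · simp only [zc_some]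
    have hR' : R = (s₁ + s₂) * s₃ - s₁ * s₂ := by rw [hI4]; ring
    rw [hR']
    exact zc_final hx₃0 hx₁0 hx₂0 hs₁0 hs₂0 hs₃0 hD

theorem IsMC.E1_add {E : WeierstrassCurve.Affine K} (hE : IsMC E)
    (hU : v E.a₂ ≤ 1) (hW : v E.a₄ ≤ 1) (P₁ P₂ : E.Point) (hP₁ : InE1 v P₁) (hP₂ : InE1 v P₂) :
    InE1 v (P₁ + P₂) ∧
      ∃ δ : K, v δ < 1 ∧ zc (P₁ + P₂) = (zc P₁ + zc P₂) * (1 + δ) := by
  rcases P₁ with _ | ⟨x₁, y₁, h₁⟩
  · rw [← Point.zero_def, zero_add]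
    exact ⟨hP₂, 0, by simp, by simp⟩
  rcases P₂ with _ | ⟨x₂, y₂, h₂⟩
  · rw [← Point.zero_def, add_zero]
    exact ⟨hP₁, 0, by simp, by simp⟩
  have hx₁ : 1 < v x₁ := hP₁
  have hx₂ : 1 < v x₂ := hP₂
  have hx₁0 : x₁ ≠ 0 := ne_zero_of_one_lt hx₁
  have hx₂0 : x₂ ≠ 0 := ne_zero_of_one_lt hx₂
  obtain ⟨s₁, h₁', e₁'⟩ := exists_s h₁ hx₁0
  obtain ⟨s₂, h₂', e₂'⟩ := exists_s h₂ hx₂0
  rw [e₁', e₂']
  by_cases hD : s₁ + s₂ = 0
  · have e₁ := hE.equation_s hx₁0 h₁'.1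
    have e₂ := hE.equation_s hx₂0 h₂'.1
    have hx12 : 1 < v (x₁ * x₂) := by
      rw [map_mul]; exact one_lt_mul_of_lt_of_le hx₁ hx₂.le
    have hvM : v (x₁ * x₂ - E.a₄) = v (x₁ * x₂) :=
      Valuation.map_sub_eq_of_lt_left v (lt_of_le_of_lt hW hx12)
    have hM : x₁ * x₂ - E.a₄ ≠ 0 := ne_zero_of_one_lt (hvM ▸ hx12)
    have hd := alg_diff e₁ e₂
    rw [hD, mul_zero, mul_zero] at hd
    have hxx : x₁ = x₂ := by
      rcases mul_eq_zero.1 hd.symm with h | h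
      · exact sub_eq_zero.1 h
      · exact absurd h hM
    have hs : s₂ = -s₁ := by linear_combination hD
    have hy : x₁ * s₁ = E.negY x₂ (x₂ * s₂) := by
      rw [hE.negY, hxx, hs]; ring
    rw [Point.add_of_Y_eq hxx hy]
    refine ⟨trivial, 0, by simp, ?_⟩
    simp only [zc_zero, zc_some]
    have hs₁ := v_s_sq hU hW hx₁ e₁
    have ha : 1 < v s₁ := one_lt_of_one_lt_sq (hs₁ ▸ hx₁)
    have hs₁0 : s₁ ≠ 0 := ne_zero_of_one_lt ha
    rw [hs]
    field_simp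
    ring
  · exact hE.E1_add_core hU hW hx₁ hx₂ hD h₁' h₂'

omit [DecidableEq K] in
theorem InE1_neg {E : WeierstrassCurve.Affine K} (P : E.Point) (hP : InE1 v P) : InE1 v (-P) := by
  rcases P with _ | ⟨x, y, h⟩
  · exact trivial
  · exact hP

theorem IsMC.E1_nsmul {E : WeierstrassCurve.Affine K} (hE : IsMC E)
    (hU : v E.a₂ ≤ 1) (hW : v E.a₄ ≤ 1) (P : E.Point) (hP : InE1 v P) (k : ℕ) :
    InE1 v (k • P) ∧ ∃ ε : K, v ε < 1 ∧ zc (k • P) = zc P * (k + ε) := by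
  induction k with
  | zero => exact ⟨by simp, 0, by simp, by simp⟩
  | succ k ih =>
    obtain ⟨h1, ε, hε, hz⟩ := ih
    obtain ⟨h2, δ, hδ, hz'⟩ := hE.E1_add hU hW (k • P) P h1 hP
    rw [succ_nsmul]
    refine ⟨h2, ε + δ * (k + 1 + ε), ?_, ?_⟩
    · apply Valuation.map_add_lt v hε
      rw [map_mul]
      apply mul_lt_one_of_lt_of_le hδ
      apply Valuation.map_add_le v _ hε.le
      have := v_natCast_le_one v (k + 1)
      rwa [Nat.cast_succ] at this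
    · rw [hz', hz]
      push_cast
      ring

/-- `E₁` has no torsion of order a unit. -/
theorem IsMC.E1_torsion_free {E : WeierstrassCurve.Affine K} (hE : IsMC E)
    (hU : v E.a₂ ≤ 1) (hW : v E.a₄ ≤ 1) (P : E.Point) (hP : InE1 v P) (p : ℕ)
    (hp : v (p : K) = 1) (hpP : p • P = 0) : P = 0 := by
  obtain ⟨-, ε, hε, hz⟩ := hE.E1_nsmul hU hW P hP p
  rw [hpP, zc_zero] at hz
  rcases P with _ | ⟨x, y, h⟩
  · rfl
  exfalso
  have hx : 1 < v x := hP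
  have hx0 : x ≠ 0 := ne_zero_of_one_lt hx
  have hy0 : y ≠ 0 := by
    rintro rfl
    have he := (hE.equation_iff x 0).1 h.1
    have e : x * (0:K) ^ 2 = x ^ 2 + E.a₂ * x + E.a₄ := by
      apply mul_left_cancel₀ hx0
      linear_combination he
    have := v_s_sq hU hW hx e
    simp at this
    rw [← this] at hx
    simp at hx
  have h1 : v ((p : K) + ε) = 1 := by
    rw [← hp]
    exact Valuation.map_add_eq_of_lt_left v (hp ▸ hε)
  have h2 : (p : K) + ε ≠ 0 := by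
    intro h0
    rw [h0] at h1
    simp at h1
  rw [zc_some] at hz
  exact (mul_ne_zero (div_ne_zero hx0 hy0) h2) hz.symm

end

end Fermat.Agent.S05
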