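import Mathlib

/-!
# Group law identities on `y² = x³ + u x² + w x`

`W` is an affine Weierstrass curve over a field with `a₁ = a₃ = a₆ = 0`; we write `u = a₂`,
`w = a₄`.
-/

set_option autoImplicit false

namespace Fermat.Agent.S05

open WeierstrassCurve WeierstrassCurve.Affine

variable {K : Type*} [Field K] [DecidableEq K] {W : WeierstrassCurve.Affine K}

/-- The curve has the shape `y² = x³ + u x² + w x`. -/
structure IsModel (W : WeierstrassCurve.Affine K) : Prop where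
  a₁ : W.a₁ = 0
  a₃ : W.a₃ = 0
  a₆ : W.a₆ = 0

namespace IsModel

variable (hW : IsModel W)
include hW

lemma equation_iff (x y : K) : W.Equation x y ↔ y ^ 2 = x ^ 3 + W.a₂ * x ^ 2 + W.a₄ * x := by
  rw [Affine.equation_iff, hW.a₁, hW.a₃, hW.a₆]; simp

lemma eqn {x y : K} (h : W.Nonsingular x y) : y ^ 2 = x ^ 3 + W.a₂ * x ^ 2 + W.a₄ * x :=
  (hW.equation_iff x y).1 h.1

lemma negY (x y : K) : W.negY x y = -y := by
  simp [Affine.negY, hW.a₁, hW.a₃]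

lemma neg_some {x y : K} (h : W.Nonsingular x y) :
    ∃ h' : W.Nonsingular x (-y), -Point.some x y h = Point.some x (-y) h' := by
  have h' : W.Nonsingular x (-y) := by
    have := (nonsingular_neg x y).mpr h
    rwa [hW.negY] at this
  refine ⟨h', ?_⟩
  rw [Point.neg_some]
  congr 1
  exact hW.negY x y

/-- chord formula -/
lemma add_of_X_ne {x₁ y₁ x₂ y₂ : K} (h₁ : W.Nonsingular x₁ y₁) (h₂ : W.Nonsingular x₂ y₂)
    (hx : x₁ ≠ x₂) :
    ∃ (x₃ y₃ : K) (h₃ : W.Nonsingular x₃ y₃),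
      Point.some x₁ y₁ h₁ + Point.some x₂ y₂ h₂ = Point.some x₃ y₃ h₃ ∧
      x₃ * (x₁ * x₂ * (x₁ - x₂) ^ 2) = (y₁ * x₂ - y₂ * x₁) ^ 2 ∧
      y₃ * (x₁ - x₂) = -((y₁ - y₂) * x₃ + (y₂ * x₁ - y₁ * x₂)) := by
  have e₁ := hW.eqn h₁
  have e₂ := hW.eqn h₂
  have hne : x₁ - x₂ ≠ 0 := sub_ne_zero.mpr hx
  refine ⟨_, _, _, Point.add_of_X_ne hx, ?_, ?_⟩
  · rw [slope_of_X_ne hx]
    simp only [Affine.addX, hW.a₁]
    field_simp
    linear_combination (x₁ * x₂ - x₂ ^ 2) * e₁ + (x₁ * x₂ - x₁ ^ 2) * e₂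
  · rw [slope_of_X_ne hx]
    simp only [Affine.addY, Affine.negAddY, Affine.negY, Affine.addX, hW.a₁, hW.a₃]
    field_simp
    ring

/-- general addition formula for the `x`-coordinate (chord or tangent). -/
lemma add_formula {x₁ y₁ x₂ y₂ : K} (h₁ : W.Nonsingular x₁ y₁) (h₂ : W.Nonsingular x₂ y₂)
    (hxy : ¬(x₁ = x₂ ∧ y₁ = -y₂)) :
    ∃ (x₃ y₃ : K) (h₃ : W.Nonsingular x₃ y₃),
      Point.some x₁ y₁ h₁ + Point.some x₂ y₂ h₂ = Point.some x₃ y₃ h₃ ∧
      x₃ * (y₁ * x₂ + y₂ * x₁) ^ 2 = x₁ * x₂ * (x₁ * x₂ - W.a₄) ^ 2 := by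
  have e₁ := hW.eqn h₁
  have e₂ := hW.eqn h₂
  by_cases hx : x₁ = x₂
  · subst hx
    have hy : y₁ ≠ -y₂ := fun h => hxy ⟨rfl, h⟩
    have hy' : y₁ = y₂ := by
      have : (y₁ - y₂) * (y₁ + y₂) = 0 := by linear_combination e₁ - e₂
      rcases mul_eq_zero.1 this with h | h
      · exact sub_eq_zero.1 h
      · exact absurd (eq_neg_of_add_eq_zero_left h) hy
    subst hy'
    have hy0 : y₁ ≠ 0 := fun h => hy (by rw [h, neg_zero])
    have hxy' : ¬(x₁ = x₁ ∧ y₁ = W.negY x₁ y₁) := by rw [hW.negY]; exact hxy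
    refine ⟨_, _, _, Point.add_some hxy', ?_⟩
    rw [slope_of_Y_ne rfl (by rw [hW.negY]; exact hy)]
    simp only [Affine.addX, hW.a₁, hW.negY]
    have h2 : (2 : K) ≠ 0 := by
      intro h
      apply hy
      linear_combination y₁ * h
    have h3 : y₁ - -y₁ = 2 * y₁ := by ring
    rw [h3]
    field_simp
    linear_combination (-(16 : K) * x₁ ^ 2 * (W.a₂ + 2 * x₁)) * e₁
  · obtain ⟨x₃, y₃, h₃, hadd, hx₃, -⟩ := hW.add_of_X_ne h₁ h₂ hx
    refine ⟨x₃, y₃, h₃, hadd, ?_⟩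
    have hne : x₁ - x₂ ≠ 0 := sub_ne_zero.mpr hx
    by_cases h0 : x₁ * x₂ = 0
    · rcases mul_eq_zero.1 h0 with h | h
      · subst h
        have : y₁ = 0 := by
          have : y₁ ^ 2 = 0 := by rw [e₁]; ring
          exact pow_eq_zero_iff (two_ne_zero) |>.1 this
        subst this
        ring
      · subst h
        have : y₂ = 0 := by
          have : y₂ ^ 2 = 0 := by rw [e₂]; ring
          exact pow_eq_zero_iff (two_ne_zero) |>.1 this
        subst this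
        ring
    · have key : (y₁ * x₂ - y₂ * x₁) * (y₁ * x₂ + y₂ * x₁)
          = x₁ * x₂ * (x₁ - x₂) * (x₁ * x₂ - W.a₄) := by
        linear_combination x₂ ^ 2 * e₁ - x₁ ^ 2 * e₂
      have hc : x₁ * x₂ * (x₁ - x₂) ^ 2 ≠ 0 := mul_ne_zero h0 (pow_ne_zero 2 hne)
      apply mul_left_cancel₀ hc
      calc x₁ * x₂ * (x₁ - x₂) ^ 2 * (x₃ * (y₁ * x₂ + y₂ * x₁) ^ 2)
          = (x₃ * (x₁ * x₂ * (x₁ - x₂) ^ 2)) * (y₁ * x₂ + y₂ * x₁) ^ 2 := by ring
        _ = ((y₁ * x₂ - y₂ * x₁) * (y₁ * x₂ + y₂ * x₁)) ^ 2 := by rw [hx₃]; ring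
        _ = _ := by rw [key]; ring

/-- `(0,0)` is a nonsingular point as soon as `w ≠ 0`. -/
lemma nonsingular_zero (hw : W.a₄ ≠ 0) : W.Nonsingular 0 0 := by
  rw [Affine.nonsingular_zero]
  exact ⟨hW.a₆, Or.inr hw⟩

/-- translation by the two-torsion point `T = (0,0)`. -/
lemma add_T {x y : K} (h : W.Nonsingular x y) (hx : x ≠ 0) (hT : W.Nonsingular 0 0) :
    ∃ h' : W.Nonsingular (W.a₄ / x) (-(W.a₄ * y / x ^ 2)),
      Point.some x y h + Point.some 0 0 hT = Point.some (W.a₄ / x) (-(W.a₄ * y / x ^ 2)) h' := by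
  have e := hW.eqn h
  have hX : W.addX x 0 (W.slope x 0 y 0) = W.a₄ / x := by
    rw [slope_of_X_ne hx]
    simp only [Affine.addX, hW.a₁]
    field_simp
    linear_combination x * e
  have hY : W.addY x 0 y (W.slope x 0 y 0) = -(W.a₄ * y / x ^ 2) := by
    simp only [Affine.addY, Affine.negAddY, hW.negY, hX]
    rw [slope_of_X_ne hx]
    field_simp
    ring
  have h' : W.Nonsingular (W.a₄ / x) (-(W.a₄ * y / x ^ 2)) := by
    have := nonsingular_add h hT (fun hh => hx hh.1)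
    rwa [hX, hY] at this
  refine ⟨h', ?_⟩
  rw [Point.add_of_X_ne hx]
  simp only [hX, hY]

lemma T_add_T (hT : W.Nonsingular 0 0) : Point.some 0 0 hT + Point.some 0 0 hT = 0 :=
  Point.add_of_Y_eq rfl (by rw [hW.negY, neg_zero])

end IsModel

end Fermat.Agent.S05
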