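import Mathlib

/-!
# S05, parts [B] and [G]

Two points of `y² = x³ + u x² + w x` with "the same reduction" differ by an element of the
kernel of reduction `E₁ = {O} ∪ {x ∉ A}`.
-/

set_option autoImplicit false
set_option linter.unusedSectionVars false

namespace Fermat.Agent.S05.SameRed

open WeierstrassCurve WeierstrassCurve.Affine

variable {K : Type*} [Field K] [DecidableEq K]

section val

variable (A : ValuationSubring K)

lemma not_mem_of_sq_sub {l c : K} (hl : l ∉ A) (hc : c ∈ A) : l ^ 2 - c ∉ A := by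
  intro h
  have h2 : l ^ 2 ∈ A := by
    have := A.add_mem _ _ h hc
    simpa using this
  rw [← A.valuation_le_one_iff] at h2 hl
  rw [map_pow] at h2
  exact hl (by
    by_contra hcon
    rw [not_le] at hcon
    exact absurd h2 (not_le.mpr (one_lt_pow₀ hcon two_ne_zero)))

lemma div_not_mem {a b : K} (hb : b ≠ 0) (h : A.valuation b < A.valuation a) : a / b ∉ A := by
  intro hmem
  rw [← A.valuation_le_one_iff, map_div₀] at hmem
  have hb' : A.valuation b ≠ 0 := (Valuation.ne_zero_iff _).mpr hb
  rw [div_le_one₀ (zero_lt_iff.mpr hb')] at hmem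
  exact absurd h (not_lt.mpr hmem)

end val

variable {W : WeierstrassCurve.Affine K} (A : ValuationSubring K)

/-- The basic criterion: if the slope of the chord through `P₁` and `-P₂` is not integral, then
`P₁ - P₂` lies in the kernel of reduction. -/
theorem sub_inE1_of_slope (h1 : W.a₁ = 0) (hu : W.a₂ ∈ A)
    {x1 y1 x2 y2 : K} (hP1 : W.Nonsingular x1 y1) (hP2 : W.Nonsingular x2 y2)
    (hx1 : x1 ∈ A) (hx2 : x2 ∈ A)
    (H : ¬ (x1 = x2 ∧ y1 = y2) → W.slope x1 x2 y1 (W.negY x2 y2) ∉ A) :
    (Point.some x1 y1 hP1 - Point.some x2 y2 hP2 : W.Point) = 0 ∨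
      ∃ x y h, (Point.some x1 y1 hP1 - Point.some x2 y2 hP2 : W.Point) = Point.some x y h ∧
        x ∉ A := by
  by_cases hxy : x1 = x2 ∧ y1 = y2
  · left
    obtain ⟨rfl, rfl⟩ := hxy
    exact sub_self _
  · right
    have hxy' : ¬ (x1 = x2 ∧ y1 = W.negY x2 (W.negY x2 y2)) := by
      rwa [negY_negY]
    have key : (Point.some x1 y1 hP1 - Point.some x2 y2 hP2 : W.Point) =
        Point.some _ _ (nonsingular_add hP1 ((nonsingular_neg ..).mpr hP2) hxy') := by
      rw [sub_eq_add_neg, Point.neg_some, Point.add_some hxy']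
    refine ⟨_, _, _, key, ?_⟩
    have := not_mem_of_sq_sub A (H hxy) (A.add_mem _ _ (A.add_mem _ _ hu hx1) hx2)
    rw [addX, h1]
    convert this using 2
    ring

/-- **[G]** Two points whose `x`-coordinates have ratio `≡ 1` and whose `s = y/x` are congruent
units differ by an element of the kernel of reduction. -/
theorem sub_inE1_of_ratio (h1 : W.a₁ = 0) (h3 : W.a₃ = 0) (hu : W.a₂ ∈ A)
    (h2 : A.valuation 2 = 1)
    {x1 y1 x2 y2 : K} (hP1 : W.Nonsingular x1 y1) (hP2 : W.Nonsingular x2 y2)
    (hx2A : x2 ∈ A) (hx2 : x2 ≠ 0) (hx : A.valuation (x1 - x2) < A.valuation x2)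
    (hs : A.valuation (y1 / x1 - y2 / x2) < 1) (hs2 : A.valuation (y2 / x2) = 1) :
    (Point.some x1 y1 hP1 - Point.some x2 y2 hP2 : W.Point) = 0 ∨
      ∃ x y h, (Point.some x1 y1 hP1 - Point.some x2 y2 hP2 : W.Point) = Point.some x y h ∧
        x ∉ A := by
  have hvx1 : A.valuation x1 = A.valuation x2 := by
    have : x1 = x2 + (x1 - x2) := by ring
    rw [this]
    exact Valuation.map_add_eq_of_lt_left _ hx
  have hx1A : x1 ∈ A := by
    rw [← A.valuation_le_one_iff, hvx1, A.valuation_le_one_iff]; exact hx2A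
  have hx1 : x1 ≠ 0 := by
    rw [← Valuation.ne_zero_iff A.valuation, hvx1, Valuation.ne_zero_iff]; exact hx2
  have hneg : W.negY x2 y2 = -y2 := by simp [negY, h1, h3]
  refine sub_inE1_of_slope A h1 hu hP1 hP2 hx1A hx2A fun hne => ?_
  by_cases hxx : x1 = x2
  · exfalso
    have hyy : y1 ≠ y2 := fun h => hne ⟨hxx, h⟩
    have hy : y1 = -y2 := by
      rcases Y_eq_of_X_eq hP1.1 hP2.1 hxx with h | h
      · exact absurd h hyy
      · rw [h, hneg]
    have : y1 / x1 - y2 / x2 = -(2 * (y2 / x2)) := by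
      rw [hxx, hy]; ring
    rw [this, Valuation.map_neg, map_mul, h2, hs2, one_mul] at hs
    exact lt_irrefl _ hs
  · rw [slope_of_X_ne hxx, hneg, sub_neg_eq_add]
    refine div_not_mem A (sub_ne_zero.mpr hxx) ?_
    have hs1 : A.valuation (y1 / x1) = 1 := by
      have : y1 / x1 = y2 / x2 + (y1 / x1 - y2 / x2) := by ring
      rw [this, ← hs2]
      exact Valuation.map_add_eq_of_lt_left _ (by rw [hs2]; exact hs)
    have hss : A.valuation (y1 / x1 + y2 / x2) = 1 := by
      have : y1 / x1 + y2 / x2 = 2 * (y2 / x2) + (y1 / x1 - y2 / x2) := by ring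
      have h' : A.valuation (2 * (y2 / x2)) = 1 := by rw [map_mul, h2, hs2, one_mul]
      rw [this, ← h']
      exact Valuation.map_add_eq_of_lt_left _ (by rw [h']; exact hs)
    have hdecomp : y1 + y2 = (y1 / x1 + y2 / x2) * x2 + y1 / x1 * (x1 - x2) := by
      field_simp
      ring
    have hval : A.valuation (y1 + y2) = A.valuation x2 := by
      have h' : A.valuation ((y1 / x1 + y2 / x2) * x2) = A.valuation x2 := by
        rw [map_mul, hss, one_mul]
      rw [hdecomp, ← h']
      refine Valuation.map_add_eq_of_lt_left _ ?_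
      rw [h', map_mul, hs1, one_mul]
      exact hx
    rw [hval]
    exact hx

/-- **[B]** Two integral points with the same nonsingular reduction differ by an element of the
kernel of reduction. -/
theorem sub_inE1_of_nonsingular_reduction (h1 : W.a₁ = 0) (h3 : W.a₃ = 0) (hu : W.a₂ ∈ A)
    (h2 : A.valuation 2 = 1)
    {x1 y1 x2 y2 : K} (hP1 : W.Nonsingular x1 y1) (hP2 : W.Nonsingular x2 y2)
    (hx1 : x1 ∈ A) (hx : A.valuation (x1 - x2) < 1) (hy : A.valuation (y1 - y2) < 1)
    (hns : A.valuation y1 = 1 ∨ A.valuation (3 * x1 ^ 2 + 2 * W.a₂ * x1 + W.a₄) = 1) :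
    (Point.some x1 y1 hP1 - Point.some x2 y2 hP2 : W.Point) = 0 ∨
      ∃ x y h, (Point.some x1 y1 hP1 - Point.some x2 y2 hP2 : W.Point) = Point.some x y h ∧
        x ∉ A := by
  have hx2 : x2 ∈ A := by
    have : x2 = x1 - (x1 - x2) := by ring
    rw [this]
    exact A.toSubring.sub_mem hx1 ((A.valuation_le_one_iff _).mp hx.le)
  have hneg : W.negY x2 y2 = -y2 := by simp [negY, h1, h3]
  refine sub_inE1_of_slope A h1 hu hP1 hP2 hx1 hx2 fun hne => ?_
  by_cases hxx : x1 = x2
  · have hyy : y1 ≠ y2 := fun h => hne ⟨hxx, h⟩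
    have hy' : y1 = -y2 := by
      rcases Y_eq_of_X_eq hP1.1 hP2.1 hxx with h | h
      · exact absurd h hyy
      · rw [h, hneg]
    have hy2 : y2 = -y1 := by rw [hy', neg_neg]
    have h2y : y1 - y2 = 2 * y1 := by rw [hy2]; ring
    have hv2y : A.valuation (2 * y1) < 1 := by rw [← h2y]; exact hy
    have hvy : A.valuation y1 < 1 := by rwa [map_mul, h2, one_mul] at hv2y
    have hf : A.valuation (3 * x1 ^ 2 + 2 * W.a₂ * x1 + W.a₄) = 1 := by
      rcases hns with h | h
      · exact absurd h hvy.ne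
      · exact h
    have hyne : y1 ≠ W.negY x2 (W.negY x2 y2) := by rwa [negY_negY]
    rw [slope_of_Y_ne hxx hyne]
    have hden : y1 - W.negY x1 y1 = 2 * y1 := by simp [negY, h1, h3]; ring
    rw [hden, h1, zero_mul, sub_zero]
    refine div_not_mem A ?_ (by rw [hf]; exact hv2y)
    rw [← h2y]
    exact sub_ne_zero.mpr hyy
  · rw [slope_of_X_ne hxx, hneg, sub_neg_eq_add]
    refine div_not_mem A (sub_ne_zero.mpr hxx) ?_
    rcases hns with h | h
    · have : y1 + y2 = 2 * y1 + -(y1 - y2) := by ring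
      have h' : A.valuation (2 * y1) = 1 := by rw [map_mul, h2, h, one_mul]
      have hval : A.valuation (y1 + y2) = 1 := by
        rw [this, ← h']
        exact Valuation.map_add_eq_of_lt_left _ (by rw [h', Valuation.map_neg]; exact hy)
      rw [hval]; exact hx
    · -- `(y1 + y2) (y1 - y2) = (x1 - x2) g` with `g` a unit
      set g : K := x1 ^ 2 + x1 * x2 + x2 ^ 2 + W.a₂ * (x1 + x2) + W.a₄ with hg
      have hgval : A.valuation g = 1 := by
        have : g = (3 * x1 ^ 2 + 2 * W.a₂ * x1 + W.a₄) + (x1 - x2) * -(x2 + 2 * x1 + W.a₂) := by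
          rw [hg]; ring
        rw [this, ← h]
        refine Valuation.map_add_eq_of_lt_left _ ?_
        rw [h, map_mul]
        have hle : A.valuation (-(x2 + 2 * x1 + W.a₂)) ≤ 1 := by
          rw [A.valuation_le_one_iff]
          refine A.neg_mem _ (A.add_mem _ _ (A.add_mem _ _ hx2 (A.mul_mem _ _ ?_ hx1)) hu)
          exact (A.valuation_le_one_iff _).mp h2.le
        calc A.valuation (x1 - x2) * A.valuation (-(x2 + 2 * x1 + W.a₂))
            ≤ A.valuation (x1 - x2) * 1 := by gcongr
          _ < 1 := by rw [mul_one]; exact hx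
      have heq : (y1 + y2) * (y1 - y2) = (x1 - x2) * g := by
        have e1 := (equation_iff _ _).mp hP1.1
        have e2 := (equation_iff _ _).mp hP2.1
        rw [h1, h3] at e1 e2
        rw [hg]
        linear_combination e1 - e2
      have hv := congrArg A.valuation heq
      rw [map_mul, map_mul, hgval, mul_one] at hv
      by_contra hcon
      rw [not_lt] at hcon
      have hpos : 0 < A.valuation (x1 - x2) :=
        zero_lt_iff.mpr ((Valuation.ne_zero_iff _).mpr (sub_ne_zero.mpr hxx))
      have : A.valuation (x1 - x2) < A.valuation (x1 - x2) := by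
        calc A.valuation (x1 - x2) = A.valuation (y1 + y2) * A.valuation (y1 - y2) := hv.symm
          _ ≤ A.valuation (x1 - x2) * A.valuation (y1 - y2) := by gcongr
          _ < A.valuation (x1 - x2) * 1 := by
              exact mul_lt_mul_of_pos_left hy hpos
          _ = A.valuation (x1 - x2) := mul_one _
      exact lt_irrefl _ this

end Fermat.Agent.S05.SameRed
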